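/-
P-CFT / TATE-BR0 (helper77): `Ĥ⁰(S, M) = 0` iff every `S`-invariant is an `S`-norm.
-/
import Fermat.Agent.H24.Tate.Interfaces

set_option autoImplicit false

noncomputable section

open CategoryTheory groupCohomology groupHomology

namespace Fermat.Agent.H77

universe u

variable {R H : Type u} [CommRing R] [Group H] [Fintype H]

theorem tbr_isZero_zero_iff_exact (N : Rep R H) :
    Limits.IsZero (tateCohomology N 0) ↔
      ((tateComplex N).sc' (-1) 0 1).Exact := by
  have h1 : tateCohomology N 0 = (tateComplex N).homology 0 := rfl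
  rw [h1, ← HomologicalComplex.exactAt_iff_isZero_homology,
    HomologicalComplex.exactAt_iff' (tateComplex N) (-1) 0 1 (by simp) (by simp)]

omit [Fintype H] in
theorem tbr_d01_eq_zero_iff (N : Rep R H) (a : N.V) :
    (d₀₁ N) a = 0 ↔ ∀ h : H, N.ρ h a = a := by
  constructor
  · intro h0 h
    have := congrFun h0 h
    rw [d₀₁_hom_apply] at this
    exact sub_eq_zero.mp this
  · intro h0
    funext h
    rw [d₀₁_hom_apply, h0 h, sub_self]
    rfl

theorem tbr_isZero_zero_iff (N : Rep R H) :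
    Limits.IsZero (tateCohomology N 0) ↔
      ∀ a : N.V, (∀ h : H, N.ρ h a = a) → ∃ b : N.V, N.ρ.norm b = a := by
  rw [tbr_isZero_zero_iff_exact, ShortComplex.moduleCat_exact_iff]
  constructor
  · intro hex a ha
    have h1 : (inhomogeneousCochains N).d 0 1 ((cochainsIso₀ N).inv a) = 0 := by
      rw [eq_d₀₁_comp_inv_apply, (tbr_d01_eq_zero_iff N a).mpr ha, map_zero]
    obtain ⟨x₁, hx₁⟩ := hex ((cochainsIso₀ N).inv a) h1
    refine ⟨(chainsIso₀ N).hom x₁, ?_⟩
    have h2 : N.tateNorm x₁ = (cochainsIso₀ N).inv a := hx₁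
    have h3 : N.tateNorm x₁ = (cochainsIso₀ N).inv (N.ρ.norm ((chainsIso₀ N).hom x₁)) := rfl
    rw [h3] at h2
    have h4 := congrArg (cochainsIso₀ N).hom h2
    simpa using h4
  · intro hP x₂ hx₂
    change (inhomogeneousCochains N).X 0 at x₂
    have hx₂' : (inhomogeneousCochains N).d 0 1 x₂ = 0 := hx₂
    have h1 : (d₀₁ N) ((cochainsIso₀ N).hom x₂) = 0 := by
      have h2 := ConcreteCategory.congr_hom (comp_d₀₁_eq N) x₂
      rw [ConcreteCategory.comp_apply, ConcreteCategory.comp_apply] at h2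
      rw [h2, hx₂', map_zero]
    obtain ⟨b, hb⟩ := hP _ ((tbr_d01_eq_zero_iff N _).mp h1)
    refine ⟨(chainsIso₀ N).inv b, ?_⟩
    show N.tateNorm ((chainsIso₀ N).inv b) = x₂
    have h3 : N.tateNorm ((chainsIso₀ N).inv b) =
        (cochainsIso₀ N).inv (N.ρ.norm ((chainsIso₀ N).hom ((chainsIso₀ N).inv b))) := rfl
    rw [h3]
    have h4 : (chainsIso₀ N).hom ((chainsIso₀ N).inv b) = b := by simp
    rw [h4, hb]
    simp

end Fermat.Agent.H77

namespace Fermat.Agent.H77

open Fermat.Agent.H24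

theorem tbr_normOn_eq {R G : Type} [CommRing R] [Group G] [Fintype G] (M : Rep R G)
    (S : Subgroup G) [Fintype S] (b : M.V) :
    normOn M.ρ S b = (Rep.res S.subtype M).ρ.norm b := by
  classical
  unfold normOn
  have h1 : (Rep.res S.subtype M).ρ.norm b = ∑ s : S, M.ρ (s : G) b := by
    unfold Representation.norm
    rw [LinearMap.sum_apply]
    rfl
  rw [h1]
  exact Finset.sum_subtype (p := fun g : G => g ∈ S) _ (fun x => by simp) (fun g => M.ρ g b)

theorem tbr_bridgeH0 : Fermat.Agent.H24.BridgeH0Statement := by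
  intro G _ _ M S _
  rw [tbr_isZero_zero_iff]
  constructor
  · intro h a ha
    obtain ⟨b, hb⟩ := h a (fun s => ha s.1 s.2)
    exact ⟨b, (tbr_normOn_eq M S b).trans hb⟩
  · intro h a ha
    obtain ⟨b, hb⟩ := h a (fun s hs => ha ⟨s, hs⟩)
    exact ⟨b, (tbr_normOn_eq M S b).symm.trans hb⟩

end Fermat.Agent.H77

end
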