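import Fermat.Agent.H36.ESE.Abstract
import Fermat.Agent.H23.PlaceBasic

/-!
# P-ES / ES-E, row E8: isolation + centre property gives equivariance (abstract part)

Abstract function fields `F / L` and `Fbar / k`, a map of places `r`, semilinear automorphisms
`g` of `F / L` and `gbar` of `Fbar / k` fixing functions `j` resp. `jbar` for which `r` has the
centre property.  If `r_* ∘ g = gbar ∘ r_*` on a set `PP` of divisors which isolates places,
then `r (g • P) = gbar • r P` for every place `P`.
-/

set_option autoImplicit false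

noncomputable section

namespace Fermat.Agent.H77

open AlgebraicCurve

section Ord

variable {k Fbar : Type*} [Field k] [Field Fbar] [Algebra k Fbar]

/-- A place cannot be a pole of `f` and a zero of `f - b`, `b` constant. -/
theorem eseg_not_pole_and_zero (Q : Place k Fbar) (f : Fbar) (b : k)
    (h1 : Q.ord f < 0) (h2 : 0 < Q.ord (f - algebraMap k Fbar b)) : False := by
  have hf : f ≠ 0 := by
    rintro rfl
    simp at h1
  have h3 : (0 : ℤ) ≤ Q.ord ((f - algebraMap k Fbar b) + algebraMap k Fbar b) :=
    Fermat.Agent.H23.ord_add_ge Q (by simpa using hf) 0 (Or.inr h2.le)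
      (Or.inr (by rw [Fermat.Agent.H23.ord_algebraMap]))
  rw [sub_add_cancel] at h3
  omega

/-- A place cannot be a zero of `f - a` and of `f - b` for distinct constants `a`, `b`. -/
theorem eseg_const_eq_of_zero (Q : Place k Fbar) (f : Fbar) (a b : k)
    (h1 : 0 < Q.ord (f - algebraMap k Fbar a)) (h2 : 0 < Q.ord (f - algebraMap k Fbar b)) :
    a = b := by
  by_contra hab
  have hne : algebraMap k Fbar (b - a) ≠ 0 := by
    rw [Ne, map_eq_zero_iff _ (algebraMap k Fbar).injective]
    exact sub_ne_zero.mpr (Ne.symm hab)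
  have hsum : (f - algebraMap k Fbar a) + -(f - algebraMap k Fbar b) = algebraMap k Fbar (b - a) := by
    rw [map_sub]
    ring
  have h3 : (1 : ℤ) ≤ Q.ord ((f - algebraMap k Fbar a) + -(f - algebraMap k Fbar b)) :=
    Fermat.Agent.H23.ord_add_ge Q (by rw [hsum]; exact hne) 1 (Or.inr h1)
      (Or.inr (by rw [Fermat.Agent.H23.ord_neg]; exact h2))
  rw [hsum, Fermat.Agent.H23.ord_algebraMap] at h3
  omega

end Ord

section Abstract

variable {L F k Fbar : Type*} [Field L] [Field F] [Algebra L F] [Field k] [Field Fbar]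
  [Algebra k Fbar]

/-- If `c ∉ A` then `σ c ∉ A`, for `σ` inducing an automorphism of the residue field. -/
theorem eseg_not_mem_of_induced (A : ValuationSubring L) (π : A →+* k)
    (hπker : ∀ a : A, π a = 0 ↔ (a : L) ∈ A.nonunits)
    (σ : L ≃+* L) (σbar : k ≃+* k)
    (hind : ∀ a : A, ∃ b : A, (b : L) = σ (a : L) ∧ π b = σbar (π a))
    {c : L} (hc : c ∉ A) : σ c ∉ A := by
  intro hσc
  have hc0 : c ≠ 0 := fun h => hc (h ▸ A.zero_mem)
  have hinv : c⁻¹ ∈ A := (A.mem_or_inv_mem c).resolve_left hc
  have hnu : c⁻¹ ∈ A.nonunits := by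
    rw [ValuationSubring.mem_nonunits_iff_exists_mem_maximalIdeal]
    refine ⟨hinv, ?_⟩
    rw [IsLocalRing.mem_maximalIdeal, mem_nonunits_iff]
    intro hu
    obtain ⟨u, hu⟩ := hu
    apply hc
    have h1 : ((u⁻¹ : Aˣ) : A) * ⟨c⁻¹, hinv⟩ = 1 := by
      rw [← hu]
      exact Units.inv_mul u
    have h2 : (((u⁻¹ : Aˣ) : A) : L) * c⁻¹ = 1 := by
      have := congrArg Subtype.val h1
      simpa using this
    have h3 : (((u⁻¹ : Aˣ) : A) : L) = c := by
      field_simp at h2
      exact h2
    rw [← h3]
    exact Subtype.property _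
  have hπ0 : π ⟨c⁻¹, hinv⟩ = 0 := (hπker _).mpr hnu
  obtain ⟨b, hb, hπb⟩ := hind ⟨c⁻¹, hinv⟩
  rw [hπ0, map_zero] at hπb
  have hbnu : (b : L) ∈ A.nonunits := (hπker b).mp hπb
  have hb' : (b : L) = (σ c)⁻¹ := by
    rw [hb]
    exact map_inv₀ σ c
  rw [ValuationSubring.mem_nonunits_iff_exists_mem_maximalIdeal] at hbnu
  obtain ⟨hbA, hbm⟩ := hbnu
  rw [IsLocalRing.mem_maximalIdeal, mem_nonunits_iff] at hbm
  apply hbm
  have hσc0 : σ c ≠ 0 := by
    rw [Ne, map_eq_zero_iff σ σ.injective]
    exact hc0
  refine IsUnit.of_mul_eq_one (⟨σ c, hσc⟩ : A) ?_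
  apply Subtype.ext
  show (b : L) * σ c = 1
  rw [hb']
  exact inv_mul_cancel₀ hσc0


/-- Classification of a degree one place with respect to a nonconstant function `j`: either it
is of "pole type" (pole of `j`, or `j` takes a value outside `A`), or `j` takes a value in `A`. -/
theorem eseg_classify (A : ValuationSubring L) (j : F) (hjncL : ∀ c : L, j ≠ algebraMap L F c)
    (P : Place L F) (hdeg : P.deg = 1) :
    (P.ord j < 0 ∨ ∃ c : L, c ∉ A ∧ 0 < P.ord (j - algebraMap L F c)) ∨
      ∃ c : A, 0 < P.ord (j - algebraMap L F (c : L)) := by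
  rcases lt_or_ge (P.ord j) 0 with h | h
  · exact Or.inl (Or.inl h)
  · obtain ⟨c, hc⟩ := Fermat.Agent.H23.exists_const_ord_sub_pos P hdeg (Or.inr h)
    rcases hc with hc | hc
    · exact absurd hc (hjncL c)
    · by_cases hcA : c ∈ A
      · exact Or.inr ⟨⟨c, hcA⟩, hc⟩
      · exact Or.inl (Or.inr ⟨c, hcA, hc⟩)

/-- **Row E8, abstract form.** -/
theorem eseg_galois_abstract
    (A : ValuationSubring L) (π : A →+* k)
    (hπker : ∀ a : A, π a = 0 ↔ (a : L) ∈ A.nonunits)
    (r : Place L F → Place k Fbar)
    (g : SemilinearAut L F) (gbar : SemilinearAut k Fbar)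
    (hind : ∀ a : A, ∃ b : A, (b : L) = SemilinearAut.baseAut g (a : L) ∧
      π b = SemilinearAut.baseAut gbar (π a))
    (j : F) (jbar : Fbar) (hgj : g • j = j) (hgjbar : gbar • jbar = jbar)
    (hjncL : ∀ c : L, j ≠ algebraMap L F c)
    (hjnc : ∀ a : k, jbar - algebraMap k Fbar a ≠ 0)
    (hfin : HasPrincipalDivisors k Fbar)
    (hdeg : ∀ P : Place L F, P.deg = 1)
    (hc : ∀ P : Place L F, (P.ord j < 0 → (r P).ord jbar < 0) ∧
      (∀ c : A, 0 < P.ord (j - algebraMap L F (c : L)) →
        0 < (r P).ord (jbar - algebraMap k Fbar (π c))) ∧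
      (∀ c : L, c ∉ A → 0 < P.ord (j - algebraMap L F c) → (r P).ord jbar < 0))
    (PP : Set (Divisor L F))
    (hPP : ∀ D ∈ PP, Finsupp.mapDomain r (g • D) = gbar • Finsupp.mapDomain r D)
    (hiso : ∀ (P₁ : Place L F) (S : Finset (Place k Fbar)),
      ∃ D ∈ PP, D P₁ = 1 ∧ ∀ P', P' ≠ P₁ → D P' ≠ 0 → r P' ∉ S)
    (P : Place L F) : r (g • P) = gbar • r P := by
  classical
  -- transport of orders along `g` and `gbar`
  have hgord : ∀ (P : Place L F) (c : L),
      (g • P).ord (j - algebraMap L F (SemilinearAut.baseAut g c)) =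
        P.ord (j - algebraMap L F c) := by
    intro P c
    have h := SemilinearAut.ord_smul g P (j - algebraMap L F c)
    rwa [smul_sub, hgj, SemilinearAut.smul_algebraMap] at h
  have hgord0 : ∀ P : Place L F, (g • P).ord j = P.ord j := by
    intro P
    have h := SemilinearAut.ord_smul g P j
    rwa [hgj] at h
  have hgbord : ∀ (Q : Place k Fbar) (a : k),
      (gbar • Q).ord (jbar - algebraMap k Fbar (SemilinearAut.baseAut gbar a)) =
        Q.ord (jbar - algebraMap k Fbar a) := by
    intro Q a
    have h := SemilinearAut.ord_smul gbar Q (jbar - algebraMap k Fbar a)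
    rwa [smul_sub, hgjbar, SemilinearAut.smul_algebraMap] at h
  have hgbord0 : ∀ Q : Place k Fbar, (gbar • Q).ord jbar = Q.ord jbar := by
    intro Q
    have h := SemilinearAut.ord_smul gbar Q jbar
    rwa [hgjbar] at h
  -- the two types of places
  have hpole : ∀ P : Place L F,
      (P.ord j < 0 ∨ ∃ c : L, c ∉ A ∧ 0 < P.ord (j - algebraMap L F c)) →
      (r (g • P)).ord jbar < 0 ∧ (gbar • r P).ord jbar < 0 := by
    intro P hP
    constructor
    · rcases hP with h | ⟨c, hcA, h⟩
      · exact (hc (g • P)).1 (by rw [hgord0]; exact h)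
      · refine (hc (g • P)).2.2 (SemilinearAut.baseAut g c)
          (eseg_not_mem_of_induced A π hπker _ (SemilinearAut.baseAut gbar) hind hcA) ?_
        rw [hgord]
        exact h
    · rw [hgbord0]
      rcases hP with h | ⟨c, hcA, h⟩
      · exact (hc P).1 h
      · exact (hc P).2.2 c hcA h
  have hval : ∀ (P : Place L F) (c : A), 0 < P.ord (j - algebraMap L F (c : L)) →
      0 < (r (g • P)).ord (jbar - algebraMap k Fbar (SemilinearAut.baseAut gbar (π c))) ∧
      0 < (gbar • r P).ord (jbar - algebraMap k Fbar (SemilinearAut.baseAut gbar (π c))) := by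
    intro P c h
    constructor
    · obtain ⟨b, hb, hπb⟩ := hind c
      have h1 : 0 < (g • P).ord (j - algebraMap L F (b : L)) := by
        rw [hb, hgord]
        exact h
      have h2 := (hc (g • P)).2.1 b h1
      rwa [hπb] at h2
    · rw [hgbord]
      exact (hc P).2.1 c h
  -- the difference map
  set δ : Divisor L F →+ Divisor k Fbar :=
    (Finsupp.mapDomain.addMonoidHom r).comp (DistribSMul.toAddMonoidHom (Divisor L F) g) -
      (DistribSMul.toAddMonoidHom (Divisor k Fbar) gbar).comp (Finsupp.mapDomain.addMonoidHom r)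
    with hδ
  have hδapp : ∀ D, δ D = Finsupp.mapDomain r (g • D) - gbar • Finsupp.mapDomain r D :=
    fun D => rfl
  have hδsingle : ∀ P : Place L F, δ (Finsupp.single P 1) =
      Finsupp.single (r (g • P)) 1 - Finsupp.single (gbar • r P) 1 := by
    intro P
    rw [hδapp, SemilinearAut.smul_single, Finsupp.mapDomain_single, Finsupp.mapDomain_single,
      SemilinearAut.smul_single]
  have key := Fermat.Agent.H36.eq_zero_of_isolation r δ PP
    (fun D hD => by rw [hδapp, hPP D hD, sub_self])
    (fun P => {r (g • P), gbar • r P})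
    (by
      intro P Q hQ
      rw [Finset.mem_coe, hδsingle, Finsupp.mem_support_iff, Finsupp.sub_apply,
        Finsupp.single_apply, Finsupp.single_apply] at hQ
      rw [Finset.coe_insert, Finset.coe_singleton, Set.mem_insert_iff, Set.mem_singleton_iff]
      by_contra hcon
      rw [not_or] at hcon
      rw [if_neg (Ne.symm hcon.1), if_neg (Ne.symm hcon.2)] at hQ
      exact hQ (sub_zero 0))
    (by
      intro P₁
      rcases eseg_classify A j hjncL P₁ (hdeg P₁) with hP₁ | ⟨c₁, hc₁⟩
      · -- pole type
        obtain ⟨D₀, hD₀, -⟩ := hfin.exists_divisor jbar (by simpa using hjnc 0)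
        refine ⟨D₀.support, fun P' hP' => ?_⟩
        have h0 : (r P').ord jbar = 0 := by
          rw [← hD₀]
          exact Finsupp.notMem_support_iff.mp hP'
        have hS₁ := hpole P₁ hP₁
        rcases eseg_classify A j hjncL P' (hdeg P') with hP'' | ⟨c', hc'⟩
        · exfalso
          have : (r P').ord jbar < 0 := by
            rcases hP'' with h | ⟨c, hcA, h⟩
            · exact (hc P').1 h
            · exact (hc P').2.2 c hcA h
          omega
        · have hS' := hval P' c' hc'
          rw [Finset.disjoint_left]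
          intro Q hQ' hQ₁
          rw [Finset.mem_insert, Finset.mem_singleton] at hQ' hQ₁
          have hz : 0 < Q.ord (jbar - algebraMap k Fbar (SemilinearAut.baseAut gbar (π c'))) := by
            rcases hQ' with rfl | rfl
            · exact hS'.1
            · exact hS'.2
          have hp : Q.ord jbar < 0 := by
            rcases hQ₁ with rfl | rfl
            · exact hS₁.1
            · exact hS₁.2
          exact eseg_not_pole_and_zero Q jbar _ hp hz
      · -- value type
        obtain ⟨D₁, hD₁, -⟩ := hfin.exists_divisor (jbar - algebraMap k Fbar (π c₁)) (hjnc _)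
        refine ⟨D₁.support, fun P' hP' => ?_⟩
        have h0 : (r P').ord (jbar - algebraMap k Fbar (π c₁)) = 0 := by
          rw [← hD₁]
          exact Finsupp.notMem_support_iff.mp hP'
        have hS₁ := hval P₁ c₁ hc₁
        rw [Finset.disjoint_left]
        intro Q hQ' hQ₁
        rw [Finset.mem_insert, Finset.mem_singleton] at hQ' hQ₁
        have hz₁ : 0 < Q.ord (jbar - algebraMap k Fbar (SemilinearAut.baseAut gbar (π c₁))) := by
          rcases hQ₁ with rfl | rfl
          · exact hS₁.1
          · exact hS₁.2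
        rcases eseg_classify A j hjncL P' (hdeg P') with hP'' | ⟨c', hc'⟩
        · have hS' := hpole P' hP''
          have hp : Q.ord jbar < 0 := by
            rcases hQ' with rfl | rfl
            · exact hS'.1
            · exact hS'.2
          exact eseg_not_pole_and_zero Q jbar _ hp hz₁
        · have hS' := hval P' c' hc'
          have hz : 0 < Q.ord (jbar - algebraMap k Fbar (SemilinearAut.baseAut gbar (π c'))) := by
            rcases hQ' with rfl | rfl
            · exact hS'.1
            · exact hS'.2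
          have heq := eseg_const_eq_of_zero Q jbar _ _ hz hz₁
          have heq' : π c' = π c₁ := (SemilinearAut.baseAut gbar).injective heq
          have h1 := (hc P').2.1 c' hc'
          rw [heq'] at h1
          omega)
    hiso (Finsupp.single P 1)
  rw [hδsingle, sub_eq_zero] at key
  exact Finsupp.single_left_injective one_ne_zero key


/-- Vanishing of `r_* ∘ g - gbar ∘ r_*` on the divisor of a function `f` whose reduction is
`fbar`, provided the reduction of `g • f` is `gbar • fbar`. -/
theorem eseg_mapDomain_smul_of_div (r : Place L F → Place k Fbar)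
    (g : SemilinearAut L F) (gbar : SemilinearAut k Fbar) (f : F) (fbar : Fbar)
    (D : Divisor L F) (hD : ∀ P, D P = P.ord f)
    (h1 : ∀ Q, Finsupp.mapDomain r D Q = Q.ord fbar)
    (h2 : ∀ E : Divisor L F, (∀ P, E P = P.ord (g • f)) →
      ∀ Q, Finsupp.mapDomain r E Q = Q.ord (gbar • fbar)) :
    Finsupp.mapDomain r (g • D) = gbar • Finsupp.mapDomain r D := by
  have hE : ∀ P, (g • D) P = P.ord (g • f) := by
    intro P
    rw [SemilinearAut.divisor_smul_apply, hD]
    have h := SemilinearAut.ord_smul g (g⁻¹ • P) f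
    rw [smul_inv_smul] at h
    exact h.symm
  ext Q
  rw [h2 (g • D) hE Q, SemilinearAut.divisor_smul_apply, h1]
  have h := SemilinearAut.ord_smul gbar (gbar⁻¹ • Q) fbar
  rw [smul_inv_smul] at h
  exact h

end Abstract

end Fermat.Agent.H77

end
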