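import Fermat.Agent.H36.ESE.Rows
import Fermat.Agent.H77.EsEGaloisAbs

/-!
# P-ES / ES-E, row E8: `GaloisOfIsolationStatement`

Isolation + centre property for `j` gives Galois equivariance of every place reduction map.
The abstract argument is `eseg_galois_abstract`; here we plug in the modular function fields,
the coefficientwise Galois actions and the prelude axiom `IsPlaceReductionAlong`.
-/

set_option autoImplicit false

noncomputable section

namespace Fermat.Agent.H77

open ModularCurve AlgebraicCurve HahnSeries IntermediateField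

section Restrict

variable {L : Type*} [Field L] [Algebra ℚ L] (A : ValuationSubring L)
variable {k : Type*} [Field k] (π : A →+* k)

/-- The restriction to `A` of an automorphism of `L` mapping `A` into itself. -/
def esegRestrict (σ : L ≃ₐ[ℚ] L) (h : ∀ a : A, σ (a : L) ∈ A) : A →+* A :=
  RingHom.codRestrict ((σ : L →+* L).comp A.subtype) A h

@[simp]
theorem coe_esegRestrict (σ : L ≃ₐ[ℚ] L) (h : ∀ a : A, σ (a : L) ∈ A) (a : A) :
    ((esegRestrict A σ h a : A) : L) = σ (a : L) :=
  rfl

theorem eseg_coeffMap_subtype_restrict (σ : L ≃ₐ[ℚ] L) (h : ∀ a : A, σ (a : L) ∈ A)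
    (y : LaurentSeries A) :
    coeffMap A.subtype (coeffMap (esegRestrict A σ h) y) =
      coeffMap (σ : L →+* L) (coeffMap A.subtype y) := by
  rw [coeffMap_coeffMap, coeffMap_coeffMap]
  exact coeffMap_congr (RingHom.ext fun a => rfl) y

theorem eseg_coeffMap_pi_restrict (σ : L ≃ₐ[ℚ] L) (h : ∀ a : A, σ (a : L) ∈ A)
    (σbar : k ≃+* k) (hπ : ∀ a : A, π (esegRestrict A σ h a) = σbar (π a))
    (y : LaurentSeries A) :
    coeffMap π (coeffMap (esegRestrict A σ h) y) =
      coeffMap (σbar : k →+* k) (coeffMap π y) := by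
  rw [coeffMap_coeffMap, coeffMap_coeffMap]
  exact coeffMap_congr (RingHom.ext fun a => hπ a) y

theorem eseg_coeffMap_equiv_ne_zero (σbar : k ≃+* k) {x : LaurentSeries k} (hx : x ≠ 0) :
    coeffMap (σbar : k →+* k) x ≠ 0 := by
  intro h
  apply hx
  ext n
  have h1 := congrArg (fun z => HahnSeries.coeff z n) h
  simp only [coeffMap_coeff, HahnSeries.coeff_zero] at h1
  rw [HahnSeries.coeff_zero]
  exact (map_eq_zero_iff (σbar : k →+* k) σbar.injective).mp h1

end Restrict

section NonConstant

variable (K : Type*) [Field K]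

theorem eseg_jqModC_ne_algebraMap (c : K) : jqModC K ≠ algebraMap K (LaurentSeries K) c := by
  intro h
  have h1 := congrArg (fun z => HahnSeries.coeff z (-1 : ℤ)) h
  simp only [coeff_jqModC_neg_one, algebraMap_laurentSeries_eq_single] at h1
  rw [HahnSeries.coeff_single_of_ne (by norm_num)] at h1
  exact one_ne_zero h1

end NonConstant

section Main

open Fermat.Agent.H36

/-- **Row E8 (Galois).**  Isolation + centre property for `j` ⟹ Galois equivariance. -/
theorem eseg_galoisOfIsolation : Fermat.Agent.H36.GaloisOfIsolationStatement := by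
  intro L _ _ A k _ π N r hπ hr hPL hPk hdeg hiso hcen σ σbar hσ
  obtain ⟨hL, hk, hc⟩ := hcen
  -- the restriction of `σ` to `A`
  have hσA : ∀ a : A, σ (a : L) ∈ A := by
    intro a
    obtain ⟨b, hb, -⟩ := hσ a
    rw [← hb]
    exact b.2
  have hπσ : ∀ a : A, π (esegRestrict A σ hσA a) = σbar (π a) := by
    intro a
    obtain ⟨b, hb, hπb⟩ := hσ a
    have : esegRestrict A σ hσA a = b := Subtype.ext hb.symm
    rw [this, hπb]
  have hjL : coeffMap A.subtype (jqModC A) = jqModC L := coeffMap_jqModC _
  have hjk : coeffMap π (jqModC A) = jqModC k := coeffMap_jqModC _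
  intro P
  refine eseg_galois_abstract A π hπ.ker r (arithmeticGalois (modularFunctionFieldFull N) σ)
    (coeffAutC N σbar) (fun a => hσ a) ⟨coeffMap A.subtype (jqModC A), hL⟩
    ⟨coeffMap π (jqModC A), hk⟩ ?_ ?_ ?_ ?_ hPk hdeg hc (integralPrincipalDivisors A π N) ?_
    hiso P
  · -- `σ` fixes `j`
    apply Subtype.ext
    rw [coe_arithmeticGalois_smul]
    show coeffMap (σ : L →+* L) (coeffMap A.subtype (jqModC A)) = coeffMap A.subtype (jqModC A)
    rw [hjL, coeffMap_jqModC]
  · -- `σbar` fixes `jbar`
    apply Subtype.ext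
    rw [coe_coeffAutC_smul]
    show coeffMap (σbar : k →+* k) (coeffMap π (jqModC A)) = coeffMap π (jqModC A)
    rw [hjk, coeffMap_jqModC]
  · -- `j` is not constant
    intro c h
    have h1 := congrArg Subtype.val h
    exact eseg_jqModC_ne_algebraMap L c (hjL ▸ h1)
  · -- `jbar` is not constant
    intro a h
    have h1 := congrArg Subtype.val (sub_eq_zero.mp h)
    exact eseg_jqModC_ne_algebraMap k a (hjk ▸ h1)
  · -- vanishing on integral principal divisors
    rintro D ⟨y, hy, hyk, hne, hD⟩
    have e1 := eseg_coeffMap_subtype_restrict A σ hσA y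
    have e2 := eseg_coeffMap_pi_restrict A π σ hσA σbar hπσ y
    have hy' : coeffMap A.subtype (coeffMap (esegRestrict A σ hσA) y) ∈
        laurentBaseChange L (modularFunctionFieldFull N) := by
      rw [e1]
      exact coeffMap_mem_laurentBaseChange σ hy
    have hyk' : coeffMap π (coeffMap (esegRestrict A σ hσA) y) ∈
        modularFunctionFieldFullC k N := by
      rw [e2]
      exact Fermat.Agent.H36.coeffMap_mem_modularFunctionFieldFullC N _ hyk
    have hne' : coeffMap π (coeffMap (esegRestrict A σ hσA) y) ≠ 0 := by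
      rw [e2]
      exact eseg_coeffMap_equiv_ne_zero σbar hne
    refine eseg_mapDomain_smul_of_div r _ _ ⟨coeffMap A.subtype y, hy⟩ ⟨coeffMap π y, hyk⟩ D hD
      (hr.2 y hy hyk hne D hD) ?_
    intro E hE Q
    have hg1 : arithmeticGalois (modularFunctionFieldFull N) σ •
        (⟨coeffMap A.subtype y, hy⟩ : laurentBaseChange L (modularFunctionFieldFull N)) =
        ⟨coeffMap A.subtype (coeffMap (esegRestrict A σ hσA) y), hy'⟩ :=
      Subtype.ext e1.symm
    have hg2 : coeffAutC N σbar • (⟨coeffMap π y, hyk⟩ : modularFunctionFieldFullC k N) =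
        ⟨coeffMap π (coeffMap (esegRestrict A σ hσA) y), hyk'⟩ :=
      Subtype.ext e2.symm
    rw [hg2]
    refine hr.2 _ hy' hyk' hne' E (fun P => ?_) Q
    rw [hE P, hg1]

end Main

end Fermat.Agent.H77

end
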