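/-
P-ES / ES-A, package GROW (helper77): the holomorphic functions representing elements of the
function field `FC N` of `X₀(N)` over `ℂ` are `Γ₀(N)`-invariant of moderate growth at all cusps
(`InvariantGrowthStatement`, `RepRegularStatement`), and every class modulo `m`-th powers has a
holomorphic representative (`HolRepStatement`).  Both are derived from the packages
`CoreCStatement` (the function field is the field of fractions of `RsubC N`) and
`RsubRepStatement` (the elements of `RsubC N` are represented by invariant holomorphic functions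
of moderate growth).
-/
import Fermat.Agent.H94.EsA.Interfaces
import Fermat.Agent.H23.EsA.Lemmas
import Fermat.Agent.H82.CuspLocal

set_option autoImplicit false

noncomputable section

open UpperHalfPlane Function Filter
open scoped MatrixGroups Manifold Topology Real

namespace Fermat.Agent.H77

/-! ### Complex analysis on the upper half plane -/

/-- Holomorphic functions on `ℍ` form a domain: if `F * G = 0` and `G ≠ 0` then `F = 0`. -/
theorem esg_eq_zero_of_mul_eq_zero {F G : ℍ → ℂ} (hF : MDiff F) (hG : MDiff G)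
    (h : ∀ z : ℍ, F z * G z = 0) (hG0 : G ≠ 0) : F = 0 := by
  have hpre : IsPreconnected {z : ℂ | 0 < z.im} :=
    (convex_halfSpace_im_gt 0).isPreconnected
  have han : ∀ {F : ℍ → ℂ}, MDiff F → AnalyticOnNhd ℂ (F ∘ ofComplex) {z : ℂ | 0 < z.im} := by
    intro F hF z hz
    rw [mdifferentiable_iff] at hF
    exact hF.analyticAt (isOpen_upperHalfPlaneSet.mem_nhds hz)
  have key := AnalyticOnNhd.eq_zero_or_eq_zero_of_mul_eq_zero (han hF) (han hG)
    (fun z hz => by
      simp only [comp_apply]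
      exact h _) hpre
  rcases key with h1 | h1
  · funext z
    have := h1 (z : ℂ) z.im_pos
    simpa [comp_apply, ofComplex_apply] using this
  · exfalso
    apply hG0
    funext z
    have := h1 (z : ℂ) z.im_pos
    simpa [comp_apply, ofComplex_apply] using this

/-- Holomorphy is preserved by composition with the action of `SL(2,ℤ)`. -/
theorem esg_mdiff_comp_smul {f : ℍ → ℂ} (hf : MDiff f) (γ : SL(2, ℤ)) :
    MDiff (fun z : ℍ => f (γ • z)) := by
  have h1 : MDiff (fun z : ℍ => ((γ : GL (Fin 2) ℝ)) • z) :=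
    mdifferentiable_smul (g := (γ : GL (Fin 2) ℝ)) (by simp)
  exact hf.comp h1

/-- A function that vanishes after composition with the action of `γ` vanishes. -/
theorem esg_eq_zero_of_comp_smul_eq_zero {f : ℍ → ℂ} (γ : SL(2, ℤ))
    (h : (fun z : ℍ => f (γ • z)) = 0) : f = 0 := by
  funext z
  have := congrFun h (γ⁻¹ • z)
  simpa [smul_smul] using this

/-- `γ T ^ N γ⁻¹ ∈ Γ₀(N)` for every `γ ∈ SL(2,ℤ)`. -/
theorem esg_conj_T_pow_mem (N : ℕ) (γ : SL(2, ℤ)) :
    γ * ModularGroup.T ^ N * γ⁻¹ ∈ CongruenceSubgroup.Gamma0 N := by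
  have hTN : ModularGroup.T ^ N ∈ CongruenceSubgroup.Gamma N := by
    rw [CongruenceSubgroup.Gamma_mem]
    have := ModularGroup.coe_T_zpow (N : ℤ)
    rw [zpow_natCast] at this
    simp [this]
  have hconj' : γ * ModularGroup.T ^ N * γ⁻¹ ∈ CongruenceSubgroup.Gamma N :=
    (CongruenceSubgroup.Gamma_normal N).conj_mem _ hTN γ
  rw [CongruenceSubgroup.Gamma_mem] at hconj'
  rw [CongruenceSubgroup.Gamma0_mem]
  exact hconj'.2.2.1

/-- If `S` is `Γ₀(N)`-invariant then `z ↦ S (γ z)` is invariant under `z ↦ z + N`. -/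
theorem esg_periodic_comp_smul (N : ℕ) {S : ℍ → ℂ}
    (hinv : ∀ β ∈ CongruenceSubgroup.Gamma0 N, ∀ z : ℍ, S (β • z) = S z) (γ : SL(2, ℤ))
    (z : ℍ) : S (γ • (ModularGroup.T ^ N • z)) = S (γ • z) := by
  have h := hinv _ (esg_conj_T_pow_mem N γ) (γ • z)
  have e : (γ * ModularGroup.T ^ N * γ⁻¹) • (γ • z) = γ • (ModularGroup.T ^ N • z) := by
    rw [← mul_smul, ← mul_smul, inv_mul_cancel_right]
  rw [← e]
  exact h

/-- **Lower bound at the cusp.**  A nonzero holomorphic function on `ℍ`, invariant under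
`z ↦ z + N` and of at most exponential growth at `i∞`, is bounded below by `c e^{-2π M' Im z}`
for `Im z` large. -/
theorem esg_lower_bound (N : ℕ) [NeZero N] (S : ℍ → ℂ) (hS : MDiff S)
    (hper : ∀ z : ℍ, S (ModularGroup.T ^ N • z) = S z)
    (M : ℕ) (C Y : ℝ) (hgrow : ∀ z : ℍ, Y ≤ z.im → ‖S z‖ ≤ C * Real.exp (2 * π * M * z.im))
    (hS0 : S ≠ 0) :
    ∃ (M' : ℕ) (c Y' : ℝ), 0 < c ∧ ∀ z : ℍ, Y' ≤ z.im →
      c * Real.exp (-(2 * π * M' * z.im)) ≤ ‖S z‖ := by
  have hN : (0 : ℝ) < N := by exact_mod_cast Nat.pos_of_ne_zero (NeZero.ne N)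
  have hN1 : (1 : ℝ) ≤ N := by exact_mod_cast Nat.pos_of_ne_zero (NeZero.ne N)
  set f : ℂ → ℂ := Periodic.cuspFunction (N : ℝ) (S ∘ ofComplex) with hf
  have hmero : MeromorphicAt f 0 :=
    Fermat.Agent.H82.cm_meromorphicAt_cuspFunction_of_growth N S hS hper M C Y hgrow
  have hval : ∀ z : ℍ, f (Periodic.qParam (N : ℝ) (z : ℂ)) = S z :=
    Fermat.Agent.H82.cm_cuspFunction_qParam N S hper
  have ht := Periodic.qParam_tendsto hN
  -- the order at the cusp is finite
  have hord : meromorphicOrderAt f 0 ≠ ⊤ := by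
    intro htop
    rw [meromorphicOrderAt_eq_top_iff] at htop
    have hev := ht.eventually htop
    rw [Filter.eventually_comap] at hev
    obtain ⟨Y₁, hY₁⟩ := eventually_atTop.mp hev
    apply hS0
    refine Fermat.Agent.H82.cl_identity hS (F₂ := 0) mdifferentiable_const Y₁ (fun z hz => ?_)
    have := hY₁ z.im hz (z : ℂ) rfl
    rw [hval] at this
    exact this
  obtain ⟨n, hn⟩ := WithTop.ne_top_iff_exists.mp hord
  obtain ⟨g, hg, hg0, hfg⟩ := (meromorphicOrderAt_eq_int_iff hmero).mp hn.symm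
  have hg0' : 0 < ‖g 0‖ := norm_pos_iff.mpr hg0
  have hgc : ∀ᶠ t in 𝓝 (0 : ℂ), ‖g 0‖ / 2 < ‖g t‖ :=
    (hg.continuousAt.norm).eventually (lt_mem_nhds (half_lt_self hg0'))
  have hboth : ∀ᶠ t in 𝓝[≠] (0 : ℂ), f t = (t - 0) ^ n • g t ∧ ‖g 0‖ / 2 < ‖g t‖ :=
    hfg.and (hgc.filter_mono nhdsWithin_le_nhds)
  have hev := ht.eventually hboth
  rw [Filter.eventually_comap] at hev
  obtain ⟨Y₁, hY₁⟩ := eventually_atTop.mp hev
  refine ⟨n.toNat, ‖g 0‖ / 2, Y₁, half_pos hg0', fun z hz => ?_⟩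
  obtain ⟨h1, h2⟩ := hY₁ z.im hz (z : ℂ) rfl
  rw [hval, sub_zero] at h1
  have hzpow : Real.exp (-2 * π * (z : ℂ).im / N) ^ n
      = Real.exp ((n : ℝ) * (-2 * π * z.im / N)) := by
    rw [← Real.rpow_intCast, ← Real.exp_mul]
    congr 1
    rw [UpperHalfPlane.coe_im]
    ring
  rw [h1, norm_smul, norm_zpow, Periodic.norm_qParam, hzpow,
    mul_comm (Real.exp _) ‖g (Periodic.qParam (N : ℝ) (z : ℂ))‖]
  have hy : 0 < z.im := z.im_pos
  have hpi : 0 < π := Real.pi_pos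
  have ha : 0 ≤ 2 * π * z.im / N := by positivity
  have hnM : (n : ℝ) ≤ ((n.toNat : ℕ) : ℝ) := by
    have : n ≤ (n.toNat : ℤ) := Int.self_le_toNat n
    exact_mod_cast this
  have hexp : -(2 * π * (n.toNat : ℕ) * z.im) ≤ (n : ℝ) * (-2 * π * z.im / N) := by
    have h3 : (n : ℝ) * (2 * π * z.im / N) ≤ ((n.toNat : ℕ) : ℝ) * (2 * π * z.im / N) :=
      mul_le_mul_of_nonneg_right hnM ha
    have h4 : 2 * π * z.im / N ≤ 2 * π * z.im := by
      rw [div_le_iff₀ hN]
      have : 0 ≤ 2 * π * z.im := by positivity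
      nlinarith
    have h5 : ((n.toNat : ℕ) : ℝ) * (2 * π * z.im / N) ≤ ((n.toNat : ℕ) : ℝ) * (2 * π * z.im) :=
      mul_le_mul_of_nonneg_left h4 (Nat.cast_nonneg _)
    have e1 : (n : ℝ) * (-2 * π * z.im / N) = -((n : ℝ) * (2 * π * z.im / N)) := by ring
    rw [e1]
    linarith
  calc ‖g 0‖ / 2 * Real.exp (-(2 * π * (n.toNat : ℕ) * z.im))
      ≤ ‖g 0‖ / 2 * Real.exp ((n : ℝ) * (-2 * π * z.im / N)) :=
        mul_le_mul_of_nonneg_left (Real.exp_le_exp.mpr hexp) (half_pos hg0').le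
    _ ≤ ‖g (Periodic.qParam (N : ℝ) (z : ℂ))‖ * Real.exp ((n : ℝ) * (-2 * π * z.im / N)) :=
        mul_le_mul_of_nonneg_right h2.le (Real.exp_pos _).le

/-- **Growth of a quotient.**  If `h * S = R` with `R`, `S` of moderate growth at all cusps, `S`
holomorphic, `Γ₀(N)`-invariant and nonzero, then `h` has moderate growth at all cusps. -/
theorem esg_growth_of_mul_eq (N : ℕ) [NeZero N] {h R S : ℍ → ℂ} (hSd : MDiff S)
    (hSinv : ∀ β ∈ CongruenceSubgroup.Gamma0 N, ∀ z : ℍ, S (β • z) = S z)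
    (hSg : Fermat.Agent.H23.EsA.ModerateGrowth S) (hRg : Fermat.Agent.H23.EsA.ModerateGrowth R)
    (hS0 : S ≠ 0) (hmul : ∀ z : ℍ, h z * S z = R z) :
    Fermat.Agent.H94.EsA.HasModerateGrowth h := by
  intro γ
  obtain ⟨M₁, C₁, Y₁, h₁⟩ := hRg γ
  obtain ⟨M₂, C₂, Y₂, h₂⟩ := hSg γ
  have hSγ0 : (fun z : ℍ => S (γ • z)) ≠ 0 := fun h0 =>
    hS0 (esg_eq_zero_of_comp_smul_eq_zero γ h0)
  obtain ⟨M', c, Y', hc, hlow⟩ := esg_lower_bound N (fun z : ℍ => S (γ • z))
    (esg_mdiff_comp_smul hSd γ) (fun z => esg_periodic_comp_smul N hSinv γ z) M₂ C₂ Y₂ h₂ hSγ0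
  refine ⟨M₁ + M', |C₁| / c, max Y₁ Y', div_nonneg (abs_nonneg _) hc.le, fun z hz => ?_⟩
  have hz1 : Y₁ ≤ z.im := le_trans (le_max_left _ _) hz
  have hz2 : Y' ≤ z.im := le_trans (le_max_right _ _) hz
  have hR := h₁ z hz1
  have hS := hlow z hz2
  have hm : ‖h (γ • z)‖ * ‖S (γ • z)‖ = ‖R (γ • z)‖ := by
    rw [← norm_mul, hmul]
  have hE' : 0 < Real.exp (-(2 * π * M' * z.im)) := Real.exp_pos _
  have hE₁ : 0 < Real.exp (2 * π * M₁ * z.im) := Real.exp_pos _
  have hcE : 0 < c * Real.exp (-(2 * π * M' * z.im)) := mul_pos hc hE'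
  have hkey : ‖h (γ • z)‖ * (c * Real.exp (-(2 * π * M' * z.im)))
      ≤ |C₁| * Real.exp (2 * π * M₁ * z.im) :=
    calc ‖h (γ • z)‖ * (c * Real.exp (-(2 * π * M' * z.im)))
        ≤ ‖h (γ • z)‖ * ‖S (γ • z)‖ := mul_le_mul_of_nonneg_left hS (norm_nonneg _)
      _ = ‖R (γ • z)‖ := hm
      _ ≤ C₁ * Real.exp (2 * π * M₁ * z.im) := hR
      _ ≤ |C₁| * Real.exp (2 * π * M₁ * z.im) :=
          mul_le_mul_of_nonneg_right (le_abs_self _) hE₁.le
  have hsplit : Real.exp (2 * π * ((M₁ + M' : ℕ) : ℝ) * z.im)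
      = Real.exp (2 * π * M₁ * z.im) / Real.exp (-(2 * π * M' * z.im)) := by
    rw [← Real.exp_sub]
    congr 1
    push_cast
    ring
  rw [hsplit, div_mul_div_comm, le_div_iff₀ hcE]
  exact hkey

/-! ### The statements -/

/-- Common core of `InvariantGrowthStatement` and `RepRegularStatement`. -/
theorem esg_invariant_growth (N : ℕ) [NeZero N]
    (hcore : Fermat.Agent.H23.EsA.CoreCStatement N)
    (hrep : Fermat.Agent.H23.EsA.RsubRepStatement N)
    (x : ↥(Fermat.Agent.H23.EsA.FC N)) (h : ℍ → ℂ)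
    (hx : Fermat.Agent.H44.LaurentRel h (x : LaurentSeries ℂ)) :
    (∀ γ ∈ CongruenceSubgroup.Gamma0 N, ∀ z : ℍ, h (γ • z) = h z) ∧
      Fermat.Agent.H94.EsA.HasModerateGrowth h := by
  obtain ⟨r, s, hr, hs, hs0, hxs⟩ := hcore.2 x
  obtain ⟨R, hR, hRd, hRinv, hRg⟩ := hrep r hr
  obtain ⟨S, hS, hSd, hSinv, hSg⟩ := hrep s hs
  have hhd : MDiff h := hx.mdifferentiable
  have hmul : h * S = R := by
    have h1 : Fermat.Agent.H44.LaurentRel (h * S)
        ((x : LaurentSeries ℂ) * (s : LaurentSeries ℂ)) := hx.mul hS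
    have h2 : Fermat.Agent.H44.LaurentRel R
        ((x : LaurentSeries ℂ) * (s : LaurentSeries ℂ)) := by
      have e : ((r : ↥(Fermat.Agent.H23.EsA.FC N)) : LaurentSeries ℂ)
          = (x : LaurentSeries ℂ) * (s : LaurentSeries ℂ) := by
        rw [← hxs]; rfl
      rw [← e]
      exact hR
    exact h1.unique_left h2
  have hmul' : ∀ z : ℍ, h z * S z = R z := fun z => congrFun hmul z
  have hS0 : S ≠ 0 := by
    intro hS0
    have hS' : Fermat.Agent.H44.LaurentRel (0 : ℍ → ℂ) (s : LaurentSeries ℂ) := by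
      rw [← hS0]; exact hS
    have e := hS'.unique_right Fermat.Agent.H44.laurentRel_zero
    exact hs0 (Subtype.ext e)
  refine ⟨fun γ hγ z => ?_, esg_growth_of_mul_eq N hSd hSinv hSg hRg hS0 hmul'⟩
  have hdiff : (fun w : ℍ => h (γ • w) - h w) = 0 := by
    refine esg_eq_zero_of_mul_eq_zero ((esg_mdiff_comp_smul hhd γ).sub hhd) hSd (fun w => ?_) hS0
    have e1 : h (γ • w) * S w = R w := by
      rw [← hSinv γ hγ w, hmul' (γ • w), hRinv γ hγ w]
    rw [sub_mul, e1, hmul' w, sub_self]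
  have := congrFun hdiff z
  exact sub_eq_zero.mp this

/-- **A-GROW** (`Fermat.Agent.H94.EsA.InvariantGrowthStatement`), from CORE-C and REP. -/
theorem esg_invariantGrowthStatement (N : ℕ) [NeZero N]
    (hcore : Fermat.Agent.H23.EsA.CoreCStatement N)
    (hrep : Fermat.Agent.H23.EsA.RsubRepStatement N) :
    Fermat.Agent.H94.EsA.InvariantGrowthStatement N := by
  intro x h hx
  obtain ⟨h1, h2⟩ := esg_invariant_growth N hcore hrep x h hx
  exact ⟨fun γ z => h1 (γ : SL(2, ℤ)) γ.2 z, h2⟩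

/-- **[REP-REG]** (`Fermat.Agent.H23.EsA.RepRegularStatement`), from CORE-C and REP. -/
theorem esg_repRegularStatement (N : ℕ) [NeZero N]
    (hcore : Fermat.Agent.H23.EsA.CoreCStatement N)
    (hrep : Fermat.Agent.H23.EsA.RsubRepStatement N) :
    Fermat.Agent.H23.EsA.RepRegularStatement N := by
  intro f h hf
  obtain ⟨h1, h2⟩ := esg_invariant_growth N hcore hrep f h hf
  refine ⟨h1, fun γ => ?_⟩
  obtain ⟨M, C, Y, -, hb⟩ := h2 γ
  exact ⟨M, C, Y, hb⟩

/-- **A-HOL** (`Fermat.Agent.H94.EsA.HolRepStatement`), from CORE-C and REP: every class modulo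
`m`-th powers has a holomorphic representative. -/
theorem esg_holRepStatement (N : ℕ) [NeZero N]
    (hcore : Fermat.Agent.H23.EsA.CoreCStatement N)
    (hrep : Fermat.Agent.H23.EsA.RsubRepStatement N) :
    Fermat.Agent.H94.EsA.HolRepStatement N := by
  intro m hm f _
  obtain ⟨r, s, hr, hs, hs0, hfs⟩ := hcore.2 f
  refine ⟨s, hs0, ?_⟩
  obtain ⟨k, rfl⟩ : ∃ k, m = k + 1 := ⟨m - 1, by omega⟩
  have hmem : f * s ^ (k + 1) ∈ Fermat.Agent.H23.EsA.RsubC N := by
    have e : f * s ^ (k + 1) = r * s ^ k := by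
      rw [← hfs, pow_succ]; ring
    rw [e]
    exact mul_mem hr (pow_mem hs k)
  obtain ⟨H, hH, -⟩ := hrep _ hmem
  exact ⟨H, hH⟩

/-- The two shapes of moderate growth agree. -/
theorem esg_hasModerateGrowth_iff (h : ℍ → ℂ) :
    Fermat.Agent.H94.EsA.HasModerateGrowth h ↔ Fermat.Agent.H23.EsA.ModerateGrowth h := by
  constructor
  · intro H γ
    obtain ⟨M, C, Y, -, hb⟩ := H γ
    exact ⟨M, C, Y, hb⟩
  · intro H γ
    obtain ⟨M, C, Y, hb⟩ := H γ
    refine ⟨M, |C|, Y, abs_nonneg _, fun z hz => (hb z hz).trans ?_⟩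
    exact mul_le_mul_of_nonneg_right (le_abs_self _) (Real.exp_pos _).le

end Fermat.Agent.H77

end
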