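import Mathlib
import Fermat.Prelude.Def_GaloisRep_Residual

/-!
# Burnside's theorem for absolutely irreducible residual Galois representations

* `Fermat.Agent.H77.subalgebra_eq_top_of_irreducible`: over an algebraically closed field, a
  subalgebra of `End K V` acting irreducibly on a nontrivial finite-dimensional `V` is everything.
* `Fermat.Agent.H77.span_eq_top_of_span_baseChange_eq_top`: descent of spanning sets of
  endomorphisms along a field extension.
* `Fermat.Agent.H77.burnside`: for an absolutely irreducible `ResidualGaloisRep k`, the `k`-span of
  the image of the Galois group is all of `End k V`.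
-/

set_option autoImplicit false

namespace Fermat.Agent.H77

open scoped TensorProduct

/-- Burnside over an algebraically closed field: a subalgebra of `End K V` acting irreducibly on a
nontrivial finite-dimensional space is everything. -/
theorem subalgebra_eq_top_of_irreducible {K : Type*} [Field K] [IsAlgClosed K] {V : Type*}
    [AddCommGroup V] [Module K V] [FiniteDimensional K V] [Nontrivial V]
    (B : Subalgebra K (Module.End K V))
    (hirr : ∀ W : Submodule K V, (∀ b ∈ B, ∀ x ∈ W, b x ∈ W) → W = ⊥ ∨ W = ⊤) :
    B = ⊤ := by
  have hsimple : IsSimpleModule B V := by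
    have : IsSimpleOrder (Submodule B V) :=
      { exists_pair_ne := ⟨⊥, ⊤, bot_ne_top⟩
        eq_bot_or_eq_top := fun W => by
          rcases hirr (W.restrictScalars K) (fun b hb x hx => W.smul_mem ⟨b, hb⟩ hx) with h | h
          · left
            apply SetLike.coe_injective
            have := congrArg (fun S : Submodule K V => (S : Set V)) h
            simpa using this
          · right
            apply SetLike.coe_injective
            have := congrArg (fun S : Submodule K V => (S : Set V)) h
            simpa using this }
    exact ⟨⟩
  have hschur := IsSimpleModule.algebraMap_end_bijective_of_isAlgClosed (A := B) (V := V) K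
  have : Module.Finite (Module.End B V) V :=
    Module.Finite.of_restrictScalars_finite K (Module.End B V) V
  have hdens := Module.Finite.toModuleEnd_moduleEnd_surjective (R := B) (M := V)
  rw [eq_top_iff]
  intro f _
  let f' : Module.End (Module.End B V) V :=
    { toFun := f
      map_add' := f.map_add
      map_smul' := fun φ v => by
        obtain ⟨c, rfl⟩ := hschur.2 φ
        simp }
  obtain ⟨b, hb⟩ := hdens f'
  have : (b : Module.End K V) = f := by
    ext v
    have := congrArg (fun g : Module.End (Module.End B V) V => g v) hb
    have h2 : b • v = f v := by simpa [f'] using this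
    exact h2
  rw [← this]
  exact b.2

/-- Descent of spanning along a field extension: if the `K`-span of the base changes of a set `s`
of `k`-endomorphisms is everything, then so is the `k`-span of `s`. -/
theorem span_eq_top_of_span_baseChange_eq_top {k : Type*} [Field k] (K : Type*) [Field K]
    [Algebra k K] {V : Type*} [AddCommGroup V] [Module k V] [FiniteDimensional k V]
    (s : Set (Module.End k V))
    (h : Submodule.span K ((fun f : Module.End k V => f.baseChange K) '' s) = ⊤) :
    Submodule.span k s = ⊤ := by
  by_contra hne
  obtain ⟨l, hl0, hl⟩ := Submodule.exists_le_ker_of_lt_top _ (lt_top_iff_ne_top.mpr hne)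
  have hfp : Module.FinitePresentation k V := Module.finitePresentation_of_finite k V
  have hbc : IsBaseChange K (LinearMap.baseChangeHom k K V V) :=
    Module.FinitePresentation.isBaseChange_map k V V K
  let lK : (K ⊗[k] V →ₗ[K] K ⊗[k] V) →ₗ[K] K := hbc.lift ((Algebra.linearMap k K).comp l)
  have hlK : ∀ f : Module.End k V, lK (f.baseChange K) = algebraMap k K (l f) := fun f => by
    have := hbc.lift_eq ((Algebra.linearMap k K).comp l) f
    simpa [lK] using this
  have hzero : lK = 0 := by
    have hle : Submodule.span K ((fun f : Module.End k V => f.baseChange K) '' s) ≤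
        LinearMap.ker lK := by
      rw [Submodule.span_le]
      rintro _ ⟨f, hf, rfl⟩
      have hfl : l f = 0 := hl (Submodule.subset_span hf)
      simp [hlK, hfl]
    rw [h, top_le_iff, LinearMap.ker_eq_top] at hle
    exact hle
  apply hl0
  ext f
  have := hlK f
  rw [hzero] at this
  simp only [LinearMap.zero_apply] at this
  exact (FaithfulSMul.algebraMap_injective k K) (by simpa using this.symm)

/-- Burnside for residual Galois representations: if `rho` is absolutely irreducible then the
image of the Galois group spans `End k rho.V` over `k`. -/
theorem burnside (k : Type) [Field k] (rho : ResidualGaloisRep k)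
    (h : rho.IsAbsolutelyIrreducible) :
    Submodule.span k (Set.range rho.ρ) = ⊤ := by
  let K := AlgebraicClosure k
  let ρK := rho.baseChange K
  have hnt : Nontrivial ρK.V := by
    apply Module.nontrivial_of_finrank_pos (R := K)
    rw [ρK.finrank_eq]; norm_num
  let B : Subalgebra K (Module.End K ρK.V) := Algebra.adjoin K (Set.range ρK.ρ)
  have hB : B = ⊤ := by
    apply subalgebra_eq_top_of_irreducible
    intro W hW
    exact h W (fun σ x hx => hW _ (Algebra.subset_adjoin ⟨σ, rfl⟩) x hx)
  have hspan : Submodule.span K (Set.range ρK.ρ) = ⊤ := by
    have h1 := Algebra.adjoin_eq_span K (Set.range ρK.ρ)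
    have h2 : (Submonoid.closure (Set.range ρK.ρ) : Set (Module.End K ρK.V)) = Set.range ρK.ρ := by
      rw [← MonoidHom.coe_mrange, Submonoid.closure_eq]
    rw [h2] at h1
    rw [← h1]
    show Subalgebra.toSubmodule B = ⊤
    rw [hB]
    simp
  apply span_eq_top_of_span_baseChange_eq_top K
  convert hspan using 2
  ext f
  constructor
  · rintro ⟨g, ⟨σ, rfl⟩, rfl⟩
    exact ⟨σ, rfl⟩
  · rintro ⟨σ, rfl⟩
    exact ⟨rho.ρ σ, ⟨σ, rfl⟩, rfl⟩

end Fermat.Agent.H77
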