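import Fermat.Agent.H20.DS.Interfaces

/-!
# P-DS / DS-SS: semisimplification of a two-dimensional residual representation

`dss_semisimplify : Fermat.Agent.H20.DS.SemisimplifyStatement`.

If `ρ` has no nontrivial stable subspace, `ρ' = ρ`.  Otherwise pick a stable line `W` and let
`ρ'` act on `W × (V ⧸ W)` through `restrict × mapQ`.  The characteristic polynomial is unchanged
(block triangular matrices), and `ρ'` is semisimple because it has two complementary stable
lines.
-/

set_option autoImplicit false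

noncomputable section

namespace Fermat.Agent.H77

open Polynomial Module

section Charpoly

variable {K V : Type*} [Field K] [AddCommGroup V] [Module K V] [Module.Finite K V]
  (W : Submodule K V)

open Module.Basis in
/-- The characteristic polynomial of an endomorphism preserving `W` is the product of the
characteristic polynomials on `W` and on `V ⧸ W`. -/
theorem dss_charpoly_eq_mul (e : V →ₗ[K] V) (he : W ≤ W.comap e) :
    e.charpoly = (e.restrict he).charpoly * (W.mapQ W e he).charpoly := by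
  classical
  let m := Module.Free.ChooseBasisIndex K W
  let bW : Basis m K W := Module.Free.chooseBasis K W
  let n := Module.Free.ChooseBasisIndex K (V ⧸ W)
  let bQ : Basis n K (V ⧸ W) := Module.Free.chooseBasis K (V ⧸ W)
  let b := sumQuot bW bQ
  let A : Matrix m m K := LinearMap.toMatrix bW bW (e.restrict he)
  let B : Matrix m n K := Matrix.of fun i l ↦
    ((sumQuot bW bQ).repr (e ((sumQuot bW bQ) (Sum.inr l)))) (Sum.inl i)
  let D : Matrix n n K := LinearMap.toMatrix bQ bQ (W.mapQ W e he)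
  suffices LinearMap.toMatrix b b e = Matrix.fromBlocks A B 0 D by
    rw [← LinearMap.charpoly_toMatrix e b, this, ← LinearMap.charpoly_toMatrix _ bW,
      ← LinearMap.charpoly_toMatrix _ bQ, Matrix.charpoly_fromBlocks_zero₂₁]
  ext u v
  cases u with
  | inl i =>
    cases v with
    | inl k =>
      simp only [b, sumQuot_inl, Matrix.fromBlocks_apply₁₁, A, LinearMap.toMatrix_apply]
      apply sumQuot_repr_inl_of_mem
    | inr l => simp [b, LinearMap.toMatrix_apply, Matrix.fromBlocks_apply₁₂, B]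
  | inr j =>
    cases v with
    | inl k =>
      suffices W.mkQ (e (bW k)) = 0 by simp [LinearMap.toMatrix_apply, b, this]
      rw [← LinearMap.mem_ker, Submodule.ker_mkQ]
      exact he (Submodule.coe_mem (bW k))
    | inr l =>
      simp only [LinearMap.toMatrix_apply, sumQuot_repr_inr,
        Matrix.fromBlocks_apply₂₂, b, D]
      rw [← sumQuot_inr bW bQ l, W.mapQ_apply]
      simp

end Charpoly

section Lines

variable {K V : Type*} [Field K] [AddCommGroup V] [Module K V]

/-- In a two-dimensional space, a subspace which is neither `⊥` nor `⊤` is a line. -/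
theorem dss_finrank_eq_one (hV : Module.finrank K V = 2) (U : Submodule K V) (h0 : U ≠ ⊥)
    (h1 : U ≠ ⊤) : Module.finrank K U = 1 := by
  have : Module.Finite K V := Module.finite_of_finrank_eq_succ hV
  have hle : Module.finrank K U ≤ 2 := hV ▸ Submodule.finrank_le U
  have hne0 : Module.finrank K U ≠ 0 := fun h => h0 (Submodule.finrank_eq_zero.mp h)
  have hne2 : Module.finrank K U ≠ 2 := fun h =>
    h1 (Submodule.eq_top_of_finrank_eq (h.trans hV.symm))
  omega

/-- A family of endomorphisms of a plane having two complementary stable lines is semisimple. -/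
theorem dss_semisimple_of_compl (hV : Module.finrank K V = 2) {ι : Type*}
    (f : ι → Module.End K V) (W₁ W₂ : Submodule K V) (h12 : IsCompl W₁ W₂)
    (h1 : Module.finrank K W₁ = 1)
    (hs1 : ∀ i, ∀ x ∈ W₁, f i x ∈ W₁) (hs2 : ∀ i, ∀ x ∈ W₂, f i x ∈ W₂)
    (U : Submodule K V) :
    ∃ U' : Submodule K V, (∀ i, ∀ x ∈ U', f i x ∈ U') ∧ IsCompl U U' := by
  have : Module.Finite K V := Module.finite_of_finrank_eq_succ hV
  by_cases hbot : U = ⊥
  · exact ⟨⊤, fun _ _ _ => Submodule.mem_top, hbot ▸ isCompl_bot_top⟩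
  by_cases htop : U = ⊤
  · refine ⟨⊥, fun i x hx => ?_, htop ▸ isCompl_top_bot⟩
    rw [Submodule.mem_bot] at hx ⊢
    rw [hx, map_zero]
  by_cases hW : U = W₁
  · exact ⟨W₂, hs2, hW ▸ h12⟩
  refine ⟨W₁, hs1, ?_⟩
  have hU1 : Module.finrank K U = 1 := dss_finrank_eq_one hV U hbot htop
  have hinf : U ⊓ W₁ = ⊥ := by
    by_contra hne
    have hle1 : Module.finrank K (U ⊓ W₁ : Submodule K V) ≤ 1 :=
      h1 ▸ Submodule.finrank_mono inf_le_right
    have hne0 : Module.finrank K (U ⊓ W₁ : Submodule K V) ≠ 0 := fun h =>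
      hne (Submodule.finrank_eq_zero.mp h)
    have heq1 : Module.finrank K (U ⊓ W₁ : Submodule K V) = 1 := by omega
    have e1 : U ⊓ W₁ = U :=
      Submodule.eq_of_le_of_finrank_eq inf_le_left (heq1.trans hU1.symm)
    have e2 : U ⊓ W₁ = W₁ :=
      Submodule.eq_of_le_of_finrank_eq inf_le_right (heq1.trans h1.symm)
    exact hW (e1.symm.trans e2)
  have hsup : U ⊔ W₁ = ⊤ := by
    apply Submodule.eq_top_of_finrank_eq
    have h := Submodule.finrank_sup_add_finrank_inf_eq U W₁
    rw [hinf, finrank_bot, hU1, h1] at h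
    rw [hV]
    omega
  exact ⟨disjoint_iff.mpr hinf, codisjoint_iff.mpr hsup⟩

end Lines

section Construction

open Fermat.Agent.H20.DS

variable {k : Type} [Field k]

/-- The action on `W × (V ⧸ W)` of an endomorphism preserving `W`. -/
def dssGr {V : Type} [AddCommGroup V] [Module k V] (W : Submodule k V) (e : Module.End k V)
    (he : W ≤ W.comap e) : Module.End k (W × (V ⧸ W)) :=
  (e.restrict he).prodMap (W.mapQ W e he)

theorem dssGr_apply {V : Type} [AddCommGroup V] [Module k V] (W : Submodule k V)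
    (e : Module.End k V) (he : W ≤ W.comap e) (w : W) (v : V) :
    dssGr W e he (w, Submodule.Quotient.mk v) =
      (⟨e w, he w.2⟩, Submodule.Quotient.mk (e v)) :=
  rfl

theorem dssGr_ext {V : Type} [AddCommGroup V] [Module k V] (W : Submodule k V)
    {f g : Module.End k (W × (V ⧸ W))}
    (h : ∀ (w : W) (v : V), f (w, Submodule.Quotient.mk v) = g (w, Submodule.Quotient.mk v)) :
    f = g := by
  apply LinearMap.ext
  rintro ⟨w, q⟩
  induction q using Submodule.Quotient.induction_on with
  | _ v => exact h w v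

/-- The graded representation of `ρ` with respect to a stable subspace `W`. -/
def dssRep (ρ : ResidualGaloisRep k) (W : Submodule k ρ.V)
    (hW : ∀ σ : GalQ, W ≤ W.comap (ρ.ρ σ)) : ResidualGaloisRep k where
  V := W × (ρ.V ⧸ W)
  finrank_eq := by
    rw [Module.finrank_prod, add_comm, Submodule.finrank_quotient_add_finrank, ρ.finrank_eq]
  ρ :=
    { toFun := fun σ => dssGr W (ρ.ρ σ) (hW σ)
      map_one' := by
        apply dssGr_ext
        intro w v
        rw [dssGr_apply]
        refine Prod.ext (Subtype.ext ?_) ?_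
        · show ρ.ρ 1 (w : ρ.V) = w
          rw [map_one]
          rfl
        · show (Submodule.Quotient.mk (ρ.ρ 1 v) : ρ.V ⧸ W) = Submodule.Quotient.mk v
          rw [map_one]
          rfl
      map_mul' := by
        intro σ τ
        apply dssGr_ext
        intro w v
        rw [dssGr_apply, Module.End.mul_apply, dssGr_apply, dssGr_apply]
        refine Prod.ext (Subtype.ext ?_) ?_
        · show ρ.ρ (σ * τ) (w : ρ.V) = ρ.ρ σ (ρ.ρ τ w)
          rw [map_mul]
          rfl
        · show (Submodule.Quotient.mk (ρ.ρ (σ * τ) v) : ρ.V ⧸ W) =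
            Submodule.Quotient.mk (ρ.ρ σ (ρ.ρ τ v))
          rw [map_mul]
          rfl }
  factorsThroughFiniteLevel := by
    obtain ⟨L, hL, h1⟩ := ρ.factorsThroughFiniteLevel
    refine ⟨L, hL, fun σ hσ => ?_⟩
    apply dssGr_ext
    intro w v
    show dssGr W (ρ.ρ σ) (hW σ) (w, Submodule.Quotient.mk v) = (w, Submodule.Quotient.mk v)
    rw [dssGr_apply]
    refine Prod.ext (Subtype.ext ?_) ?_
    · show ρ.ρ σ (w : ρ.V) = w
      rw [h1 σ hσ]
      rfl
    · show (Submodule.Quotient.mk (ρ.ρ σ v) : ρ.V ⧸ W) = Submodule.Quotient.mk v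
      rw [h1 σ hσ]
      rfl

end Construction

section Main

open Fermat.Agent.H20.DS

variable {k : Type} [Field k]

theorem dssRep_rho_apply (ρ : ResidualGaloisRep k) (W : Submodule k ρ.V)
    (hW : ∀ σ : GalQ, W ≤ W.comap (ρ.ρ σ)) (σ : GalQ) :
    (dssRep ρ W hW).ρ σ = dssGr W (ρ.ρ σ) (hW σ) :=
  rfl

theorem dssRep_charpoly (ρ : ResidualGaloisRep k) (W : Submodule k ρ.V)
    (hW : ∀ σ : GalQ, W ≤ W.comap (ρ.ρ σ)) (σ : GalQ) :
    LinearMap.charpoly ((dssRep ρ W hW).ρ σ) = LinearMap.charpoly (ρ.ρ σ) := by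
  rw [dss_charpoly_eq_mul W (ρ.ρ σ) (hW σ)]
  exact LinearMap.charpoly_prodMap _ _

theorem dssRep_unramified (ρ : ResidualGaloisRep k) (W : Submodule k ρ.V)
    (hW : ∀ σ : GalQ, W ≤ W.comap (ρ.ρ σ)) (p : ℕ) (hp : ρ.IsUnramifiedAt p) :
    (dssRep ρ W hW).IsUnramifiedAt p := by
  intro A hA σ hσ
  have h1 := hp A hA σ hσ
  apply dssGr_ext
  intro w v
  show dssGr W (ρ.ρ σ) (hW σ) (w, Submodule.Quotient.mk v) = (w, Submodule.Quotient.mk v)
  rw [dssGr_apply]
  refine Prod.ext (Subtype.ext ?_) ?_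
  · show ρ.ρ σ (w : ρ.V) = w
    rw [h1]
    rfl
  · show (Submodule.Quotient.mk (ρ.ρ σ v) : ρ.V ⧸ W) = Submodule.Quotient.mk v
    rw [h1]
    rfl

theorem dssGr_semisimple {V : Type} [AddCommGroup V] [Module k V]
    (hV : Module.finrank k V = 2) (W : Submodule k V) (h0 : W ≠ ⊥) (h1 : W ≠ ⊤) {ι : Type*}
    (e : ι → Module.End k V) (he : ∀ i, W ≤ W.comap (e i)) (U : Submodule k (W × (V ⧸ W))) :
    ∃ U' : Submodule k (W × (V ⧸ W)),
      (∀ i, ∀ x ∈ U', dssGr W (e i) (he i) x ∈ U') ∧ IsCompl U U' := by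
  have : Module.Finite k V := Module.finite_of_finrank_eq_succ hV
  have hW1 : Module.finrank k W = 1 := dss_finrank_eq_one hV W h0 h1
  have hV' : Module.finrank k (W × (V ⧸ W)) = 2 := by
    rw [Module.finrank_prod, add_comm, Submodule.finrank_quotient_add_finrank, hV]
  refine dss_semisimple_of_compl hV' (fun i => dssGr W (e i) (he i))
    (LinearMap.range (LinearMap.inl k W (V ⧸ W))) (LinearMap.range (LinearMap.inr k W (V ⧸ W)))
    LinearMap.isCompl_range_inl_inr ?_ ?_ ?_ U
  · rw [LinearMap.finrank_range_of_inj LinearMap.inl_injective, hW1]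
  · rintro i x ⟨w, rfl⟩
    refine ⟨(e i).restrict (he i) w, ?_⟩
    show ((e i).restrict (he i) w, (0 : V ⧸ W)) =
      ((e i).restrict (he i) w, W.mapQ W (e i) (he i) 0)
    rw [map_zero]
  · rintro i x ⟨q, rfl⟩
    refine ⟨W.mapQ W (e i) (he i) q, ?_⟩
    show ((0 : W), W.mapQ W (e i) (he i) q) =
      ((e i).restrict (he i) 0, W.mapQ W (e i) (he i) q)
    rw [map_zero]

theorem dssRep_semisimple (ρ : ResidualGaloisRep k) (W : Submodule k ρ.V)
    (hW : ∀ σ : GalQ, W ≤ W.comap (ρ.ρ σ)) (h0 : W ≠ ⊥) (h1 : W ≠ ⊤) :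
    IsSemisimpleRep (dssRep ρ W hW) :=
  fun U _ => dssGr_semisimple ρ.finrank_eq W h0 h1 (fun σ => ρ.ρ σ) hW U

/-- **DS-SS.**  Every residual representation has a semisimplification. -/
theorem dss_semisimplify : Fermat.Agent.H20.DS.SemisimplifyStatement := by
  intro k _ ρ
  by_cases hirr : ∀ W : Submodule k ρ.V, (∀ σ : GalQ, ∀ x ∈ W, ρ.ρ σ x ∈ W) → W = ⊥ ∨ W = ⊤
  · refine ⟨ρ, ?_, fun _ => rfl, fun _ h => h⟩
    intro W hW
    rcases hirr W hW with rfl | rfl
    · exact ⟨⊤, fun _ _ _ => Submodule.mem_top, isCompl_bot_top⟩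
    · refine ⟨⊥, fun σ x hx => ?_, isCompl_top_bot⟩
      rw [Submodule.mem_bot] at hx ⊢
      rw [hx, map_zero]
  · simp only [not_forall, not_or] at hirr
    obtain ⟨W, hW, h0, h1⟩ := hirr
    have hW' : ∀ σ : GalQ, W ≤ W.comap (ρ.ρ σ) := fun σ x hx => hW σ x hx
    exact ⟨dssRep ρ W hW', dssRep_semisimple ρ W hW' h0 h1, dssRep_charpoly ρ W hW',
      dssRep_unramified ρ W hW'⟩

end Main

end Fermat.Agent.H77

end
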