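import Fermat.Agent.H81.FrobExists
import Fermat.Prelude.Def_FLTPrelim_Ramification
import Fermat.Prelude.Def_GaloisRep_Residual
import Mathlib.NumberTheory.NumberField.ExistsRamified
import Mathlib.NumberTheory.RamificationInertia.Galois
import Mathlib.FieldTheory.Galois.Infinite

/-!
# A nontrivial finite-level quotient of `Gal(ℚ̄/ℚ)` is ramified somewhere

Global input (Minkowski) for the proof of S13:

* `mem_inertiaSubgroupIn_of_forall_integral`: an automorphism of `ℚ̄` which is congruent to the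
  identity on algebraic integers modulo the non-units of `A` lies in the inertia group of `A`.
* `exists_prime_forall_exists_inertia_not_mem_fixingSubgroup`: for a finite Galois extension
  `E/ℚ` inside `ℚ̄` with `E ≠ ℚ` there is a prime `ℓ` such that for every valuation subring `A`
  of `ℚ̄` over `ℓ` some element of the inertia group of `A` acts nontrivially on `E`.
* `exists_prime_forall_exists_inertia_not_mem`: the same for a proper normal subgroup `H`
  containing the fixing subgroup of a finite extension.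
* `exists_prime_forall_exists_inertia_apply_ne_one`: the same for a nontrivial character which
  factors through a finite level.
-/

set_option autoImplicit false
set_option linter.style.haveILetI false

namespace Fermat.Agent.H77

open IsLocalRing
open scoped Pointwise NumberField
open Fermat.Agent.H81

local notation "Qbar" => AlgebraicClosure ℚ
local notation "Γ" => (AlgebraicClosure ℚ ≃ₐ[ℚ] AlgebraicClosure ℚ)
local notation "𝓑" => integralClosure ℤ (AlgebraicClosure ℚ)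

/-- An automorphism of `ℚ̄` which is congruent to the identity on algebraic integers modulo the
non-units of `A` lies in the inertia group of `A`. -/
theorem mem_inertiaSubgroupIn_of_forall_integral (A : ValuationSubring Qbar) (σ : Γ)
    (h : ∀ b : Qbar, IsIntegral ℤ b → A.valuation (σ b - b) < 1) :
    σ ∈ A.inertiaSubgroupIn ℚ := by
  have h1 : ∀ b : Qbar, IsIntegral ℤ b → (A.valuation b < 1 ↔ A.valuation (σ b) < 1) := by
    intro b hb
    constructor
    · intro hlt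
      have e : σ b = (σ b - b) + b := by ring
      rw [e]
      exact A.valuation.map_add_lt (h b hb) hlt
    · intro hlt
      have e : b = σ b - (σ b - b) := by ring
      rw [e]
      exact A.valuation.map_sub_lt hlt (h b hb)
  obtain ⟨hσ, hres⟩ := isFrobeniusAt_of_integral isAlgebraic_int_Qbar A σ 1 h1
    (fun b hb => by simpa using h b hb)
  refine ⟨⟨σ, hσ⟩, ?_, rfl⟩
  change (⟨σ, hσ⟩ : A.decompositionSubgroup ℚ) ∈ MonoidHom.ker _
  rw [MonoidHom.mem_ker]
  ext x
  simpa using hres x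

/-- The inclusion of the ring of integers of a subfield of `ℚ̄` into the ring of all algebraic
integers. -/
noncomputable def ringOfIntegersToIntegralClosure (E : IntermediateField ℚ Qbar) : 𝓞 E →+* 𝓑 where
  toFun x := ⟨algebraMap E Qbar (x : E), map_isIntegral_int (algebraMap E Qbar) x.2⟩
  map_zero' := Subtype.ext (by simp)
  map_one' := Subtype.ext (by simp)
  map_add' x y := Subtype.ext (by simp)
  map_mul' x y := Subtype.ext (by simp)

theorem ringOfIntegersToIntegralClosure_coe (E : IntermediateField ℚ Qbar) (x : 𝓞 E) :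
    ((ringOfIntegersToIntegralClosure E x : 𝓑) : Qbar) = ((x : E) : Qbar) := rfl

/-- Algebraic integers fixed by the fixing subgroup of `E` come from the ring of integers of
`E`. -/
theorem exists_ringOfIntegers_eq_of_fixed (E : IntermediateField ℚ Qbar)
    (b : 𝓑) (hb : ∀ σ ∈ E.fixingSubgroup, σ (b : Qbar) = b) :
    ∃ x : 𝓞 E, ringOfIntegersToIntegralClosure E x = b := by
  haveI := isGalois_rat_Qbar
  have hmem : (b : Qbar) ∈ E := by
    rw [← InfiniteGalois.fixedField_fixingSubgroup E, IntermediateField.mem_fixedField_iff]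
    exact hb
  have hint : IsIntegral ℤ (⟨(b : Qbar), hmem⟩ : E) := by
    have := b.2
    exact (isIntegral_algebraMap_iff (algebraMap E Qbar).injective).mp this
  exact ⟨⟨⟨(b : Qbar), hmem⟩, hint⟩, Subtype.ext rfl⟩

/-- Finite level: a nontrivial element of the inertia group of the prime below `A` in a finite
Galois extension `E/ℚ`, `E ≠ ℚ`, for a suitable prime `ℓ` and all `A` above it. -/
theorem exists_prime_forall_exists_inertia_finite (E : IntermediateField ℚ Qbar)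
    [FiniteDimensional ℚ E] [IsGalois ℚ E] (hE : 1 < Module.finrank ℚ E) :
    ∃ ℓ : ℕ, ℓ.Prime ∧ ∀ A : ValuationSubring Qbar, A.LiesOverPrime ℓ →
      ∃ τ : Gal(E/ℚ), τ ≠ 1 ∧
        ∀ x : 𝓞 E, A.valuation (((τ • x - x : 𝓞 E) : E) : Qbar) < 1 := by
  haveI : NumberField E := NumberField.of_module_finite ℚ E
  obtain ⟨ℓ, hℓ, hram⟩ := NumberField.exists_not_isUnramifiedAt_int_of_isGalois
    (K := E) (𝒪 := 𝓞 E) hE
  refine ⟨ℓ, hℓ, fun A hA => ?_⟩
  haveI : Fact ℓ.Prime := ⟨hℓ⟩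
  haveI hQp := nonunitIdeal_isPrime A
  set P : Ideal (𝓞 E) := (nonunitIdeal A).comap (ringOfIntegersToIntegralClosure E) with hP
  haveI hPp : P.IsPrime := Ideal.comap_isPrime _ _
  have hmemP : ∀ x : 𝓞 E, x ∈ P ↔ A.valuation (((x : 𝓞 E) : E) : Qbar) < 1 := fun x => Iff.rfl
  have hℓP : ((ℓ : ℕ) : 𝓞 E) ∈ P := by
    rw [hmemP]
    have : ((((ℓ : ℕ) : 𝓞 E) : E) : Qbar) = (ℓ : Qbar) := by simp
    rw [this]
    exact A.mem_nonunits_iff.mp hA
  have hnr := hram P hPp hℓP
  have hprime : Prime (ℓ : ℤ) := Nat.prime_iff_prime_int.mp hℓ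
  haveI hover : P.LiesOver (Ideal.span {(ℓ : ℤ)}) :=
    (Ideal.liesOver_span_iff Ideal.IsPrime.ne_top' hprime).mpr (by simpa using hℓP)
  have hcard : Nat.card (P.inertia Gal(E/ℚ)) ≠ 1 := by
    rw [Ideal.card_inertia_eq_ramificationIdxIn (G := Gal(E/ℚ)) (Ideal.span {(ℓ : ℤ)}) P,
      Ideal.ramificationIdxIn_eq_ramificationIdx (Ideal.span {(ℓ : ℤ)}) P Gal(E/ℚ),
      Ne, Ideal.ramificationIdx_eq_one_iff]
    exact hnr
  have hne : P.inertia Gal(E/ℚ) ≠ ⊥ := by
    intro h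
    apply hcard
    rw [h]
    simp
  obtain ⟨⟨τ, hτ⟩, hτ1⟩ := (Subgroup.ne_bot_iff_exists_ne_one).mp hne
  refine ⟨τ, fun h => hτ1 (Subtype.ext h), fun x => ?_⟩
  rw [← hmemP]
  exact hτ x

theorem coe_smul_integralClosure (σ : Γ) (b : 𝓑) : ((σ • b : 𝓑) : Qbar) = σ (b : Qbar) := rfl

/-- Lifting inertia: an automorphism `τ` of a finite Galois `E/ℚ` which is congruent to the
identity modulo the prime below `A` is the restriction of an element of the inertia group
of `A`. -/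
theorem exists_mem_inertiaSubgroupIn_restrict_eq (E : IntermediateField ℚ Qbar)
    [FiniteDimensional ℚ E] [IsGalois ℚ E] (A : ValuationSubring Qbar) (τ : Gal(E/ℚ))
    (hτ : ∀ x : 𝓞 E, A.valuation (((τ • x - x : 𝓞 E) : E) : Qbar) < 1) :
    ∃ σ ∈ A.inertiaSubgroupIn ℚ, ∀ x : E, σ (x : Qbar) = ((τ x : E) : Qbar) := by
  letI : TopologicalSpace 𝓑 := ⊥
  haveI : DiscreteTopology 𝓑 := ⟨rfl⟩
  haveI : ContinuousSMul Γ 𝓑 := continuousSMul_integralClosure
  haveI := isGalois_rat_Qbar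
  haveI := isAlgebraic_rat_Qbar
  haveI := normal_rat_Qbar
  haveI hQp := nonunitIdeal_isPrime A
  set ι := ringOfIntegersToIntegralClosure E with hι
  set Q : Ideal 𝓑 := nonunitIdeal A with hQ
  -- the group `H`
  set H : Subgroup Γ := E.fixingSubgroup with hH
  haveI : CompactSpace H := isCompact_iff_compactSpace.mp E.fixingSubgroup_isClosed.isCompact
  haveI : TotallyDisconnectedSpace H := Subtype.totallyDisconnectedSpace
  haveI : ContinuousSMul H 𝓑 := inferInstance
  haveI : SMulCommClass H (FixedPoints.subalgebra ℤ 𝓑 H) 𝓑 :=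
    instSMulCommClassSubtypeMemSubalgebraSubalgebra ℤ 𝓑 H
  haveI : Algebra.IsInvariant (FixedPoints.subalgebra ℤ 𝓑 H) 𝓑 H := ⟨fun x h ↦ ⟨⟨x, h⟩, rfl⟩⟩
  -- a lift of `τ`
  obtain ⟨σ₀, hσ₀⟩ := AlgEquiv.restrictNormalHom_surjective (F := ℚ) (K₁ := E) Qbar τ
  have hσ₀E : ∀ x : E, σ₀ (x : Qbar) = ((τ x : E) : Qbar) := by
    intro x
    rw [← hσ₀]
    exact (AlgEquiv.restrictNormal_commutes σ₀ E x).symm
  -- elements of the fixed ring come from `𝓞 E`
  have hR : ∀ r : FixedPoints.subalgebra ℤ 𝓑 H, ∃ x : 𝓞 E, ι x = (r : 𝓑) := by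
    intro r
    refine exists_ringOfIntegers_eq_of_fixed E r.1 (fun σ hσ => ?_)
    have := r.2 ⟨σ, hσ⟩
    exact congrArg Subtype.val this
  -- valuation facts at finite level
  have hmemQ : ∀ b : 𝓑, b ∈ Q ↔ A.valuation (b : Qbar) < 1 := fun b => Iff.rfl
  have hτQ : ∀ x : 𝓞 E, ι (τ • x) - ι x ∈ Q := by
    intro x
    rw [← map_sub, hmemQ]
    exact hτ x
  have hτiff : ∀ x : 𝓞 E, ι (τ • x) ∈ Q ↔ ι x ∈ Q := by
    intro x
    constructor
    · intro h
      have := Q.sub_mem h (hτQ x)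
      simpa using this
    · intro h
      have := Q.add_mem (hτQ x) h
      simpa using this
  have hσ₀ι : ∀ x : 𝓞 E, σ₀ • ι x = ι (τ • x) := by
    intro x
    apply Subtype.ext
    rw [coe_smul_integralClosure]
    exact hσ₀E (x : E)
  have hHι : ∀ (h : H) (x : 𝓞 E), (h : Γ) • ι x = ι x := by
    intro h x
    apply Subtype.ext
    rw [coe_smul_integralClosure]
    exact h.2 ⟨((x : E) : Qbar), (x : E).2⟩
  -- transitivity: move `σ₀ • Q` back to `Q` by an element of `H`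
  have hunder : (σ₀ • Q).under (FixedPoints.subalgebra ℤ 𝓑 H) =
      Q.under (FixedPoints.subalgebra ℤ 𝓑 H) := by
    ext r
    obtain ⟨x, hx⟩ := hR r
    rw [Ideal.mem_comap, Ideal.mem_comap]
    change (r : 𝓑) ∈ σ₀ • Q ↔ (r : 𝓑) ∈ Q
    rw [← hx, Ideal.mem_pointwise_smul_iff_inv_smul_mem]
    have e : σ₀⁻¹ • ι x = ι (τ⁻¹ • x) := by
      rw [inv_smul_eq_iff, hσ₀ι, smul_inv_smul]
    rw [e, ← hτiff (τ⁻¹ • x), smul_inv_smul]
  obtain ⟨h, hh⟩ := Algebra.IsInvariant.exists_smul_of_under_eq_of_profinite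
    (A := FixedPoints.subalgebra ℤ 𝓑 H) (B := 𝓑) (G := H) (σ₀ • Q) Q hunder
  set σ₁ : Γ := (h : Γ) * σ₀ with hσ₁
  have hσ₁Q : σ₁ • Q = Q := by
    rw [hσ₁, mul_smul]
    exact hh.symm
  have hσ₁ι : ∀ x : 𝓞 E, σ₁ • ι x = ι (τ • x) := by
    intro x
    rw [hσ₁, mul_smul, hσ₀ι, hHι]
  -- the automorphism of `𝓑 ⧸ Q` induced by `σ₁` is linear over the residue ring of `𝓞 E`
  let g₁ : MulAction.stabilizer Γ Q := ⟨σ₁, hσ₁Q⟩
  let ψ : (𝓑 ⧸ Q) ≃ₐ[ℤ ⧸ Q.under ℤ] (𝓑 ⧸ Q) := Ideal.Quotient.stabilizerHom Q (Q.under ℤ) Γ g₁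
  have hψ : ∀ b : 𝓑, ψ (Ideal.Quotient.mk Q b) = Ideal.Quotient.mk Q (σ₁ • b) := fun b =>
    Ideal.Quotient.stabilizerHom_apply Q (Q.under ℤ) Γ g₁ b
  let φ : (𝓑 ⧸ Q) ≃ₐ[(FixedPoints.subalgebra ℤ 𝓑 H) ⧸ Q.under (FixedPoints.subalgebra ℤ 𝓑 H)]
      (𝓑 ⧸ Q) := AlgEquiv.ofRingEquiv (f := ψ.toRingEquiv) (by
    intro r'
    obtain ⟨r, rfl⟩ := Ideal.Quotient.mk_surjective r'
    obtain ⟨x, hx⟩ := hR r
    rw [Ideal.Quotient.algebraMap_mk_of_liesOver]
    change ψ (Ideal.Quotient.mk Q (r : 𝓑)) = Ideal.Quotient.mk Q (r : 𝓑)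
    rw [hψ, ← hx, hσ₁ι, Ideal.Quotient.eq]
    exact hτQ x)
  have hφ : ∀ b : 𝓑, φ (Ideal.Quotient.mk Q b) = Ideal.Quotient.mk Q (σ₁ • b) := hψ
  obtain ⟨h', hh'⟩ := Ideal.Quotient.stabilizerHom_surjective_of_profinite (G := H)
    (Q.under (FixedPoints.subalgebra ℤ 𝓑 H)) Q φ
  have hh'b : ∀ b : 𝓑, Ideal.Quotient.mk Q (((h' : H) : Γ) • b) = Ideal.Quotient.mk Q (σ₁ • b) := by
    intro b
    rw [← hφ, ← hh']
    exact (Ideal.Quotient.stabilizerHom_apply Q _ H h' b).symm
  -- the corrected element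
  refine ⟨σ₁ * ((h' : H) : Γ)⁻¹, mem_inertiaSubgroupIn_of_forall_integral A _ ?_, ?_⟩
  · intro b hb
    have := hh'b ((((h' : H) : Γ)⁻¹) • (⟨b, hb⟩ : 𝓑))
    rw [smul_inv_smul, Ideal.Quotient.eq, hmemQ, ← A.valuation.map_neg] at this
    have e : -(((⟨b, hb⟩ - σ₁ • ((((h' : H) : Γ)⁻¹) • (⟨b, hb⟩ : 𝓑)) : 𝓑)) : Qbar) =
        (σ₁ * ((h' : H) : Γ)⁻¹) b - b := by
      push_cast
      rw [coe_smul_integralClosure, coe_smul_integralClosure]
      simp [AlgEquiv.mul_apply]
    rwa [e] at this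
  · intro x
    rw [AlgEquiv.mul_apply]
    have e1 : ((h' : H) : Γ)⁻¹ (x : Qbar) = x := by
      have hmem : ((h' : H) : Γ)⁻¹ ∈ H := H.inv_mem (h' : H).2
      exact hmem ⟨(x : Qbar), x.2⟩
    rw [e1, hσ₁, AlgEquiv.mul_apply, hσ₀E]
    exact h.2 ⟨((τ x : E) : Qbar), (τ x).2⟩

/-- **Global lemma, field form.** For a finite Galois extension `E/ℚ` inside `ℚ̄` with `E ≠ ℚ`
there is a prime `ℓ` such that for every valuation subring `A` of `ℚ̄` over `ℓ` some element of
the inertia group of `A` acts nontrivially on `E`. -/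
theorem exists_prime_forall_exists_inertia_not_mem_fixingSubgroup (E : IntermediateField ℚ Qbar)
    [FiniteDimensional ℚ E] [IsGalois ℚ E] (hE : 1 < Module.finrank ℚ E) :
    ∃ ℓ : ℕ, ℓ.Prime ∧ ∀ A : ValuationSubring Qbar, A.LiesOverPrime ℓ →
      ∃ σ ∈ A.inertiaSubgroupIn ℚ, σ ∉ E.fixingSubgroup := by
  obtain ⟨ℓ, hℓ, h⟩ := exists_prime_forall_exists_inertia_finite E hE
  refine ⟨ℓ, hℓ, fun A hA => ?_⟩
  obtain ⟨τ, hτ1, hτ⟩ := h A hA
  obtain ⟨σ, hσ, hσE⟩ := exists_mem_inertiaSubgroupIn_restrict_eq E A τ hτ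
  refine ⟨σ, hσ, fun hmem => hτ1 (AlgEquiv.ext fun x => ?_)⟩
  have h1 := hσE x
  have h2 : σ (x : Qbar) = x := hmem ⟨(x : Qbar), x.2⟩
  rw [h2] at h1
  rw [AlgEquiv.one_apply]
  exact (Subtype.ext h1).symm

/-- **Global lemma, subgroup form.** A proper normal subgroup of `Gal(ℚ̄/ℚ)` containing the
fixing subgroup of a finite extension misses some element of every inertia group over a
suitable prime `ℓ`. -/
theorem exists_prime_forall_exists_inertia_not_mem (H : Subgroup Γ) [H.Normal]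
    (L : IntermediateField ℚ Qbar) [FiniteDimensional ℚ L]
    (hL : L.fixingSubgroup ≤ H) (hH : H ≠ ⊤) :
    ∃ ℓ : ℕ, ℓ.Prime ∧ ∀ A : ValuationSubring Qbar, A.LiesOverPrime ℓ →
      ∃ σ ∈ A.inertiaSubgroupIn ℚ, σ ∉ H := by
  haveI := isGalois_rat_Qbar
  have hopen : IsOpen (H : Set Γ) := Subgroup.isOpen_mono hL L.fixingSubgroup_isOpen
  have hclosed : IsClosed (H : Set Γ) := Subgroup.isClosed_of_isOpen H hopen
  have hEH : (IntermediateField.fixedField H).fixingSubgroup = H :=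
    InfiniteGalois.fixingSubgroup_fixedField ⟨H, hclosed⟩
  have hEL : IntermediateField.fixedField H ≤ L := by
    intro x hx
    rw [← InfiniteGalois.fixedField_fixingSubgroup L, IntermediateField.mem_fixedField_iff]
    intro f hf
    exact (IntermediateField.mem_fixedField_iff H x).mp hx f (hL hf)
  haveI : FiniteDimensional ℚ (IntermediateField.fixedField H) :=
    Module.Finite.of_injective (IntermediateField.inclusion hEL).toLinearMap
      (IntermediateField.inclusion_injective hEL)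
  haveI : IsGalois ℚ (IntermediateField.fixedField H) :=
    (InfiniteGalois.normal_iff_isGalois _).mp (by rw [hEH]; infer_instance)
  have hfr : 1 < Module.finrank ℚ (IntermediateField.fixedField H) := by
    by_contra hle
    have h1 : Module.finrank ℚ (IntermediateField.fixedField H) = 1 :=
      le_antisymm (not_lt.mp hle) Module.finrank_pos
    have h2 : IntermediateField.fixedField H = ⊥ := IntermediateField.finrank_eq_one_iff.mp h1
    apply hH
    rw [← hEH, h2]
    exact IntermediateField.fixingSubgroup_bot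
  obtain ⟨ℓ, hℓ, h⟩ := exists_prime_forall_exists_inertia_not_mem_fixingSubgroup
    (IntermediateField.fixedField H) hfr
  refine ⟨ℓ, hℓ, fun A hA => ?_⟩
  obtain ⟨σ, hσ, hσH⟩ := h A hA
  exact ⟨σ, hσ, by rwa [hEH] at hσH⟩

/-- **Global lemma, character form.** A nontrivial character of `Gal(ℚ̄/ℚ)` which factors
through a finite level is ramified at some prime `ℓ` (at every valuation subring above `ℓ`). -/
theorem exists_prime_forall_exists_inertia_apply_ne_one {M : Type} [MulOneClass M]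
    (χ : Γ →* M) (hfin : GaloisFactorsThroughFiniteLevel χ) (hne : ∃ σ, χ σ ≠ 1) :
    ∃ ℓ : ℕ, ℓ.Prime ∧ ∀ A : ValuationSubring Qbar, A.LiesOverPrime ℓ →
      ∃ σ ∈ A.inertiaSubgroupIn ℚ, χ σ ≠ 1 := by
  obtain ⟨L, hLfin, hL⟩ := hfin
  haveI := hLfin
  have hker : L.fixingSubgroup ≤ χ.ker := fun σ hσ =>
    MonoidHom.mem_ker.mpr (hL σ ((L.mem_fixingSubgroup_iff σ).mp hσ))
  have hne' : χ.ker ≠ ⊤ := by
    obtain ⟨σ, hσ⟩ := hne
    intro h
    exact hσ (MonoidHom.mem_ker.mp (h ▸ Subgroup.mem_top σ))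
  obtain ⟨ℓ, hℓ, h⟩ := exists_prime_forall_exists_inertia_not_mem χ.ker L hker hne'
  refine ⟨ℓ, hℓ, fun A hA => ?_⟩
  obtain ⟨σ, hσ, hσk⟩ := h A hA
  exact ⟨σ, hσ, fun h1 => hσk (MonoidHom.mem_ker.mpr h1)⟩

/-- **Global lemma, contrapositive form.** A character of `Gal(ℚ̄/ℚ)` which factors through a
finite level and which, for every prime `ℓ`, is trivial on the inertia group of some valuation
subring above `ℓ`, is trivial. -/
theorem eq_one_of_forall_prime_exists_inertia_eq_one {M : Type} [MulOneClass M]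
    (χ : Γ →* M) (hfin : GaloisFactorsThroughFiniteLevel χ)
    (hunr : ∀ ℓ : ℕ, ℓ.Prime → ∃ A : ValuationSubring Qbar, A.LiesOverPrime ℓ ∧
      ∀ σ ∈ A.inertiaSubgroupIn ℚ, χ σ = 1) (σ : Γ) : χ σ = 1 := by
  by_contra hσ
  obtain ⟨ℓ, hℓ, h⟩ := exists_prime_forall_exists_inertia_apply_ne_one χ hfin ⟨σ, hσ⟩
  obtain ⟨A, hA, hAχ⟩ := hunr ℓ hℓ
  obtain ⟨τ, hτ, hτ1⟩ := h A hA
  exact hτ1 (hAχ τ hτ)

end Fermat.Agent.H77
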