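/-
P-ES / ES-A, package CHAR (helper77, second attempt): a nonzero holomorphic function on `ℍ` whose
`m`-th power is `Γ₀(N)`-invariant transforms by a character of exponent `m`
(`CharOfRootStatement`, in the shapes of helper94 and of helper23), and the Kummer character of a
nonzero Laurent series is unique (`KummerUniqueStatement`).
-/
import Fermat.Agent.H94.EsA.Interfaces
import Fermat.Agent.H23.EsA.Parts
import Fermat.Agent.H50.EsALocCore

set_option autoImplicit false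

noncomputable section

open UpperHalfPlane Function
open scoped MatrixGroups Manifold Topology

namespace Fermat.Agent.H77

/-- A nonzero function does not vanish somewhere. -/
theorem esc_exists_ne_zero {G : ℍ → ℂ} (hG : G ≠ 0) : ∃ z : ℍ, G z ≠ 0 := by
  by_contra hcon
  exact hG (funext fun z => by_contra fun hz => hcon ⟨z, hz⟩)

/-- Holomorphy is preserved by composition with the action of `SL(2,ℤ)`. -/
theorem esc_mdiff_comp_smul {f : ℍ → ℂ} (hf : MDiff f) (γ : SL(2, ℤ)) :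
    MDiff (fun z : ℍ => f (γ • z)) := by
  have h1 : MDiff (fun z : ℍ => ((γ : GL (Fin 2) ℝ)) • z) :=
    mdifferentiable_smul (g := (γ : GL (Fin 2) ℝ)) (by simp)
  exact hf.comp h1

/-- **Existence of the character** of a holomorphic `m`-th root of an invariant function. -/
theorem esc_exists_char (N m : ℕ) (hm : 0 < m) (G : ℍ → ℂ) (hG : MDiff G) (hG0 : G ≠ 0)
    (hinv : ∀ (γ : ↥(CongruenceSubgroup.Gamma0 N)) (z : ℍ),
      G ((γ : SL(2, ℤ)) • z) ^ m = G z ^ m) :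
    ∃ χ : ↥(CongruenceSubgroup.Gamma0 N) →* ℂˣ, χ ^ m = 1 ∧
      ∀ (γ : ↥(CongruenceSubgroup.Gamma0 N)) (z : ℍ),
        G ((γ : SL(2, ℤ)) • z) = ((χ γ : ℂˣ) : ℂ) * G z := by
  classical
  obtain ⟨z₀, hz₀⟩ := esc_exists_ne_zero hG0
  have key : ∀ γ : ↥(CongruenceSubgroup.Gamma0 N), ∃ ζ : ℂ, ζ ^ m = 1 ∧
      ∀ z : ℍ, G ((γ : SL(2, ℤ)) • z) = ζ * G z := fun γ =>
    Fermat.Agent.H50.exists_root_of_unity_of_pow_eq hm
      (esc_mdiff_comp_smul hG (γ : SL(2, ℤ))) hG (funext fun z => hinv γ z)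
  choose ζ hζm hζ using key
  have hζ0 : ∀ γ, ζ γ ≠ 0 := fun γ h0 => by
    have := hζm γ
    rw [h0, zero_pow hm.ne'] at this
    exact zero_ne_one this
  have hone : ζ 1 = 1 := by
    have h1 := hζ 1 z₀
    rw [Subgroup.coe_one, one_smul] at h1
    have h2 : ζ 1 * G z₀ = 1 * G z₀ := by rw [one_mul]; exact h1.symm
    exact mul_right_cancel₀ hz₀ h2
  have hmul : ∀ γ γ', ζ (γ * γ') = ζ γ * ζ γ' := by
    intro γ γ'
    have h1 := hζ (γ * γ') z₀
    rw [Subgroup.coe_mul, mul_smul, hζ γ, hζ γ'] at h1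
    have h2 : ζ (γ * γ') * G z₀ = ζ γ * ζ γ' * G z₀ := by
      rw [← h1]; ring
    exact mul_right_cancel₀ hz₀ h2
  refine ⟨{ toFun := fun γ => Units.mk0 (ζ γ) (hζ0 γ)
            map_one' := Units.ext hone
            map_mul' := fun γ γ' => Units.ext (hmul γ γ') }, ?_, fun γ z => hζ γ z⟩
  ext γ
  simp only [MonoidHom.pow_apply, MonoidHom.coe_mk, OneHom.coe_mk, Units.val_pow_eq_pow_val,
    Units.val_mk0, MonoidHom.one_apply, Units.val_one]
  exact hζm γ

/-- **Uniqueness of the character** of a nonzero function. -/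
theorem esc_char_unique (N : ℕ) (G : ℍ → ℂ) (hG0 : G ≠ 0)
    (χ χ' : ↥(CongruenceSubgroup.Gamma0 N) →* ℂˣ)
    (h : ∀ (γ : ↥(CongruenceSubgroup.Gamma0 N)) (z : ℍ),
      G ((γ : SL(2, ℤ)) • z) = ((χ γ : ℂˣ) : ℂ) * G z)
    (h' : ∀ (γ : ↥(CongruenceSubgroup.Gamma0 N)) (z : ℍ),
      G ((γ : SL(2, ℤ)) • z) = ((χ' γ : ℂˣ) : ℂ) * G z) : χ = χ' := by
  obtain ⟨z₀, hz₀⟩ := esc_exists_ne_zero hG0
  ext γ
  have h1 := h γ z₀
  rw [h' γ z₀] at h1
  exact (mul_right_cancel₀ hz₀ h1).symm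

/-- **A-CHAR** in helper94's shape. -/
theorem esc_charOfRootStatement (N : ℕ) : Fermat.Agent.H94.EsA.CharOfRootStatement N := by
  intro m hm g hg hg0 hinv
  exact esc_exists_char N m hm g hg hg0 hinv

/-- **[CHAR]** in helper23's shape (existence and uniqueness). -/
theorem esc_charOfRootStatement' (N : ℕ) : Fermat.Agent.H23.EsA.CharOfRootStatement N := by
  intro m hm G hG hG0
  refine ⟨fun hinv => ?_, fun χ χ' h h' => esc_char_unique N G hG0 χ χ' h h'⟩
  obtain ⟨χ, hχ, hG'⟩ := esc_exists_char N m hm G hG hG0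
    (fun γ z => hinv (γ : SL(2, ℤ)) γ.2 z)
  exact ⟨χ, hχ, hG'⟩

/-- **A-UNIQ**: the Kummer character of a nonzero Laurent series is unique. -/
theorem esc_kummerUniqueStatement (N : ℕ) : Fermat.Agent.H94.EsA.KummerUniqueStatement N := by
  rintro m hm f hf χ χ' ⟨g, hg, hgf, hgχ⟩ ⟨g', hg', hgf', hgχ'⟩
  have hpow : g ^ m = g' ^ m := hgf.unique_left hgf'
  obtain ⟨ζ, hζm, hζ⟩ := Fermat.Agent.H50.exists_root_of_unity_of_pow_eq hm hg hg' hpow
  have hζ0 : ζ ≠ 0 := fun h0 => by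
    rw [h0, zero_pow hm.ne'] at hζm
    exact zero_ne_one hζm
  have hg'0 : g' ≠ 0 := by
    intro h0
    have e : g' ^ m = 0 := by rw [h0, zero_pow hm.ne']
    rw [e] at hgf'
    exact hf (hgf'.unique_right Fermat.Agent.H44.laurentRel_zero)
  refine esc_char_unique N g' hg'0 χ χ' (fun γ z => ?_) hgχ'
  have h1 := hgχ γ z
  rw [hζ, hζ z] at h1
  have h2 : ζ * g' ((γ : SL(2, ℤ)) • z) = ζ * (((χ γ : ℂˣ) : ℂ) * g' z) := by
    rw [h1]; ring
  exact mul_left_cancel₀ hζ0 h2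

end Fermat.Agent.H77

end
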