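import Fermat.Agent.H77.RatDegComp

/-!
# `ratDeg_comp`: the multiplicativity of the degree under substitution, in unfolded form

The statement requested by the owner of WP-B (P-S52): no auxiliary definitions appear in it.
-/

set_option autoImplicit false

namespace Fermat.Agent.H77

open Polynomial

variable {F : Type*} [Field F]

theorem ratDeg_pos_of_not_const {r : RatFunc F} (hr : ¬ ∃ c : F, r = RatFunc.C c) :
    0 < ratDeg r := by
  rw [Nat.pos_iff_ne_zero]
  intro h
  obtain ⟨c, hc⟩ := (ratDeg_eq_zero_iff r).mp h
  exact hr ⟨c, by rw [hc, RatFunc.algebraMap_eq_C]⟩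

/-- **B4, unfolded shape.** -/
theorem ratDeg_comp (A B : Polynomial F) (r : RatFunc F) (hr : ¬ ∃ c : F, r = RatFunc.C c) :
    max (Polynomial.aeval r A / Polynomial.aeval r B).num.natDegree
        (Polynomial.aeval r A / Polynomial.aeval r B).denom.natDegree =
      max (algebraMap _ (RatFunc F) A / algebraMap _ _ B).num.natDegree
          (algebraMap _ (RatFunc F) A / algebraMap _ _ B).denom.natDegree *
        max r.num.natDegree r.denom.natDegree := by
  have hr' := ratDeg_pos_of_not_const hr
  have h := ratDeg_substAlgHom r hr'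
    (algebraMap _ (RatFunc F) A / algebraMap _ (RatFunc F) B)
  rw [map_div₀, substAlgHom_algebraMap, substAlgHom_algebraMap] at h
  exact h

/-- **B4**, with the (unused) hypothesis `B ≠ 0`, exactly in the requested shape. -/
theorem ratDeg_comp' (A B : Polynomial F) (_hB : B ≠ 0) (r : RatFunc F)
    (hr : ¬ ∃ c : F, r = RatFunc.C c) :
    max (Polynomial.aeval r A / Polynomial.aeval r B).num.natDegree
        (Polynomial.aeval r A / Polynomial.aeval r B).denom.natDegree =
      max (algebraMap _ (RatFunc F) A / algebraMap _ _ B).num.natDegree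
          (algebraMap _ (RatFunc F) A / algebraMap _ _ B).denom.natDegree *
        max r.num.natDegree r.denom.natDegree :=
  ratDeg_comp A B r hr

/-- The degree of a power. -/
theorem ratDeg_pow (r : RatFunc F) (q : ℕ) : ratDeg (r ^ q) = q * ratDeg r := by
  by_cases hr : ∃ c : F, r = RatFunc.C c
  · obtain ⟨c, rfl⟩ := hr
    have h1 : ratDeg (RatFunc.C c : RatFunc F) = 0 := by
      rw [← RatFunc.algebraMap_eq_C]; exact ratDeg_algebraMap_C c
    have h2 : ratDeg ((RatFunc.C c : RatFunc F) ^ q) = 0 := by
      rw [← map_pow, ← RatFunc.algebraMap_eq_C]; exact ratDeg_algebraMap_C _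
    rw [h1, h2, mul_zero]
  · have hr' := ratDeg_pos_of_not_const hr
    have h := ratDeg_substAlgHom r hr' ((RatFunc.X : RatFunc F) ^ q)
    rw [map_pow, substAlgHom_X] at h
    rw [h]
    congr 1
    have e : (RatFunc.X : RatFunc F) ^ q =
        algebraMap F[X] (RatFunc F) (X ^ q) / algebraMap F[X] (RatFunc F) 1 := by
      rw [map_one, div_one, map_pow, RatFunc.algebraMap_X]
    rw [e, ratDeg_div_of_isCoprime one_ne_zero isCoprime_one_right]
    simp

/-- The unfolded form of `ratDeg_pow`. -/
theorem max_natDegree_pow (r : RatFunc F) (q : ℕ) :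
    max (r ^ q).num.natDegree (r ^ q).denom.natDegree =
      q * max r.num.natDegree r.denom.natDegree :=
  ratDeg_pow r q

end Fermat.Agent.H77
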