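import Mathlib.Algebra.Group.Basic
import Mathlib.Algebra.Module.Basic
import Mathlib.Tactic.Ring
import Mathlib.Tactic.Abel
import Mathlib.Tactic.Linarith
import Mathlib.Tactic.LinearCombination
import Mathlib.Data.Int.Basic
import Mathlib.Algebra.Order.Ring.Int

/-!
# Functions satisfying the parallelogram law are quadratic forms

`G` is an additive commutative group and `h : G → ℤ` satisfies the parallelogram law
`h (P + Q) + h (P - Q) = 2 * h P + 2 * h Q`.

* `plPairing h P Q = h (P + Q) - h P - h Q` is symmetric and biadditive.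
* `pl_zsmul`: `h (n • P) = n ^ 2 * h P`.
* `pl_three`: the value of `h` on `m • P + n • Q + r • R`.
* `pl_gram` / `pl_gram'`: the Gram computation behind the Hasse relation
  `Φ² - a Φ + ℓ = 0`.
-/

set_option autoImplicit false

namespace Fermat.Agent.H77

variable {G : Type*} [AddCommGroup G]

/-- The parallelogram law for an integer valued function on an abelian group. -/
def ParallelogramLaw (h : G → ℤ) : Prop :=
  ∀ P Q : G, h (P + Q) + h (P - Q) = 2 * h P + 2 * h Q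

/-- The pairing attached to `h`. -/
def plPairing (h : G → ℤ) (P Q : G) : ℤ := h (P + Q) - h P - h Q

section

variable {h : G → ℤ} (hPL : ParallelogramLaw h)

include hPL

theorem pl_zero : h 0 = 0 := by
  have := hPL 0 0
  simp only [add_zero, sub_zero] at this
  linarith

theorem pl_neg (P : G) : h (-P) = h P := by
  have h1 := hPL 0 P
  have h0 := pl_zero hPL
  simp only [zero_add, zero_sub] at h1
  linarith

theorem pl_sub_comm (P Q : G) : h (P - Q) = h (Q - P) := by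
  rw [← pl_neg hPL (P - Q), neg_sub]

omit hPL in
theorem plPairing_comm (P Q : G) : plPairing h P Q = plPairing h Q P := by
  unfold plPairing
  rw [add_comm P Q]
  ring

theorem pl_two (P : G) : h (P + P) = 4 * h P := by
  have h1 := hPL P P
  have h0 := pl_zero hPL
  simp only [sub_self] at h1
  linarith

/-- The key identity: `h` of a sum of three elements. -/
theorem pl_add_add (P Q R : G) :
    h (P + Q + R) = h (P + Q) + h (P + R) + h (Q + R) - h P - h Q - h R := by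
  -- four instances of the parallelogram law
  have e1 := hPL (P + R) Q
  have e2 := hPL P (R - Q)
  have e3 := hPL (P + Q) R
  have e4 := hPL R Q
  have a1 : P + R + Q = P + Q + R := by abel
  have a2 : P + R - Q = P + (R - Q) := by abel
  have a3 : P - (R - Q) = P + Q - R := by abel
  rw [a1, a2] at e1
  rw [a3] at e2
  -- e1 : h (P+Q+R) + h (P + (R-Q)) = 2 h (P+R) + 2 h Q
  -- e2 : h (P + (R-Q)) + h (P+Q-R) = 2 h P + 2 h (R-Q)
  -- e3 : h (P+Q+R) + h (P+Q-R) = 2 h (P+Q) + 2 h R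
  -- e4 : h (R+Q) + h (R-Q) = 2 h R + 2 h Q
  have a4 : R + Q = Q + R := by abel
  rw [a4] at e4
  linarith

theorem plPairing_add_left (P P' Q : G) :
    plPairing h (P + P') Q = plPairing h P Q + plPairing h P' Q := by
  unfold plPairing
  have := pl_add_add hPL P P' Q
  linarith

theorem plPairing_add_right (P Q Q' : G) :
    plPairing h P (Q + Q') = plPairing h P Q + plPairing h P Q' := by
  rw [plPairing_comm, plPairing_add_left hPL, plPairing_comm Q P,
    plPairing_comm Q' P]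

theorem plPairing_zero_left (Q : G) : plPairing h 0 Q = 0 := by
  unfold plPairing
  rw [zero_add, pl_zero hPL]
  ring

theorem plPairing_zero_right (P : G) : plPairing h P 0 = 0 := by
  rw [plPairing_comm, plPairing_zero_left hPL]

theorem plPairing_neg_left (P Q : G) : plPairing h (-P) Q = - plPairing h P Q := by
  have := plPairing_add_left hPL P (-P) Q
  rw [add_neg_cancel, plPairing_zero_left hPL] at this
  linarith

theorem plPairing_neg_right (P Q : G) : plPairing h P (-Q) = - plPairing h P Q := by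
  rw [plPairing_comm, plPairing_neg_left hPL, plPairing_comm]

theorem plPairing_self (P : G) : plPairing h P P = 2 * h P := by
  unfold plPairing
  rw [pl_two hPL]
  ring

theorem plPairing_nsmul_left (n : ℕ) (P Q : G) :
    plPairing h (n • P) Q = n * plPairing h P Q := by
  induction n with
  | zero => simp [plPairing_zero_left hPL]
  | succ k ih =>
    rw [succ_nsmul, plPairing_add_left hPL, ih]
    push_cast
    ring

theorem plPairing_zsmul_left (n : ℤ) (P Q : G) :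
    plPairing h (n • P) Q = n * plPairing h P Q := by
  obtain ⟨k, rfl | rfl⟩ := Int.eq_nat_or_neg n
  · rw [natCast_zsmul, plPairing_nsmul_left hPL]
  · rw [neg_zsmul, natCast_zsmul, plPairing_neg_left hPL, plPairing_nsmul_left hPL]
    ring

theorem plPairing_zsmul_right (n : ℤ) (P Q : G) :
    plPairing h P (n • Q) = n * plPairing h P Q := by
  rw [plPairing_comm, plPairing_zsmul_left hPL, plPairing_comm]

omit hPL in
theorem pl_add (P Q : G) : h (P + Q) = h P + h Q + plPairing h P Q := by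
  unfold plPairing
  ring

theorem pl_sub (P Q : G) : h (P - Q) = h P + h Q - plPairing h P Q := by
  rw [sub_eq_add_neg, pl_add (h := h), pl_neg hPL, plPairing_neg_right hPL]
  ring

theorem pl_zsmul (n : ℤ) (P : G) : h (n • P) = n ^ 2 * h P := by
  have h1 : plPairing h (n • P) (n • P) = 2 * h (n • P) := plPairing_self hPL _
  rw [plPairing_zsmul_left hPL, plPairing_zsmul_right hPL, plPairing_self hPL] at h1
  have : 2 * h (n • P) = 2 * (n ^ 2 * h P) := by rw [← h1]; ring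
  linarith

theorem pl_nsmul (n : ℕ) (P : G) : h (n • P) = (n : ℤ) ^ 2 * h P := by
  rw [← natCast_zsmul, pl_zsmul hPL]

/-- `h` on a combination of two elements. -/
theorem pl_two_var (m n : ℤ) (P Q : G) :
    h (m • P + n • Q) = m ^ 2 * h P + n ^ 2 * h Q + m * n * plPairing h P Q := by
  rw [pl_add (h := h), pl_zsmul hPL, pl_zsmul hPL, plPairing_zsmul_left hPL,
    plPairing_zsmul_right hPL]
  ring

/-- `h` on a combination of three elements. -/
theorem pl_three (m n r : ℤ) (P Q R : G) :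
    h (m • P + n • Q + r • R) = m ^ 2 * h P + n ^ 2 * h Q + r ^ 2 * h R +
      m * n * plPairing h P Q + m * r * plPairing h P R + n * r * plPairing h Q R := by
  rw [pl_add (h := h), pl_two_var hPL, pl_zsmul hPL, plPairing_add_left hPL,
    plPairing_zsmul_left hPL, plPairing_zsmul_left hPL, plPairing_zsmul_right hPL,
    plPairing_zsmul_right hPL]
  ring

/-- **Gram computation**, first form. If `h P₀ = 1`, `h Φ = ℓ`, `h Φ₂ = ℓ²`, `h (Φ - P₀) = N`,
`h (Φ₂ - Φ) = ℓ N` and `h (Φ₂ + 2 Φ + P₀) = h (Φ + P₀) ^ 2`, then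
`h (Φ₂ - (ℓ + 1 - N) Φ + ℓ P₀) = 0`. -/
theorem pl_gram (P₀ Φ Φ₂ : G) (ℓ N : ℤ) (h0 : h P₀ = 1) (h1 : h Φ = ℓ) (h2 : h Φ₂ = ℓ ^ 2)
    (h01 : h (Φ - P₀) = N) (h12 : h (Φ₂ - Φ) = ℓ * N)
    (hsq : h (Φ₂ + (2 : ℤ) • Φ + P₀) = h (Φ + P₀) ^ 2) :
    h (Φ₂ - (ℓ + 1 - N) • Φ + ℓ • P₀) = 0 := by
  have e01 := pl_sub hPL Φ P₀
  have e12 := pl_sub hPL Φ₂ Φ
  have e01' := pl_add (h := h) Φ P₀
  have e3 := pl_three hPL 1 2 1 Φ₂ Φ P₀
  rw [one_zsmul, one_zsmul] at e3
  have e4 := pl_three hPL 1 (-(ℓ + 1 - N)) ℓ Φ₂ Φ P₀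
  rw [one_zsmul, neg_zsmul, ← sub_eq_add_neg] at e4
  rw [e4]
  rw [e3, e01'] at hsq
  rw [h01, h0, h1] at e01
  rw [h12, h1, h2] at e12
  rw [h0, h1, h2] at hsq
  rw [h0, h1, h2]
  have c1 : plPairing h Φ P₀ = ℓ + 1 - N := by linarith
  have c2 : plPairing h Φ₂ Φ = ℓ ^ 2 + ℓ - ℓ * N := by linarith
  rw [c1, c2] at hsq
  rw [c1, c2]
  have c3 : plPairing h Φ₂ P₀ = (ℓ + 1 - N) ^ 2 - 2 * ℓ := by
    linear_combination hsq
  rw [c3]
  ring

/-- **Gram computation**, second form, with `h (Φ₂ - P₀) = h (Φ - P₀) * h (Φ + P₀)`. -/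
theorem pl_gram' (P₀ Φ Φ₂ : G) (ℓ N : ℤ) (h0 : h P₀ = 1) (h1 : h Φ = ℓ) (h2 : h Φ₂ = ℓ ^ 2)
    (h01 : h (Φ - P₀) = N) (h12 : h (Φ₂ - Φ) = ℓ * N)
    (hmul : h (Φ₂ - P₀) = h (Φ - P₀) * h (Φ + P₀)) :
    h (Φ₂ - (ℓ + 1 - N) • Φ + ℓ • P₀) = 0 := by
  have e01 := pl_sub hPL Φ P₀
  have e12 := pl_sub hPL Φ₂ Φ
  have e02 := pl_sub hPL Φ₂ P₀
  have e01' := pl_add (h := h) Φ P₀
  have e4 := pl_three hPL 1 (-(ℓ + 1 - N)) ℓ Φ₂ Φ P₀
  rw [one_zsmul, neg_zsmul, ← sub_eq_add_neg] at e4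
  rw [e4]
  rw [e02, e01', h01] at hmul
  rw [h01, h0, h1] at e01
  rw [h12, h1, h2] at e12
  rw [h0, h1, h2] at hmul
  rw [h0, h1, h2]
  have c1 : plPairing h Φ P₀ = ℓ + 1 - N := by linarith
  have c2 : plPairing h Φ₂ Φ = ℓ ^ 2 + ℓ - ℓ * N := by linarith
  rw [c1] at hmul
  rw [c1, c2]
  have c3 : plPairing h Φ₂ P₀ = (ℓ + 1 - N) ^ 2 - 2 * ℓ := by
    linear_combination (-1 : ℤ) * hmul
  rw [c3]
  ring

end

section Nat

variable {h : G → ℕ}

/-- A natural-number valued function satisfying the parallelogram law gives an integer valued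
one. -/
theorem parallelogramLaw_natCast
    (hPL : ∀ P Q : G, h (P + Q) + h (P - Q) = 2 * h P + 2 * h Q) :
    ParallelogramLaw (fun P => (h P : ℤ)) := by
  intro P Q
  have := hPL P Q
  change ((h (P + Q) : ℤ) + (h (P - Q) : ℤ) = 2 * (h P : ℤ) + 2 * (h Q : ℤ))
  exact_mod_cast this

/-- `pl_zsmul` for natural-number valued heights. -/
theorem pl_zsmul_nat (hPL : ∀ P Q : G, h (P + Q) + h (P - Q) = 2 * h P + 2 * h Q)
    (n : ℤ) (P : G) : (h (n • P) : ℤ) = n ^ 2 * h P :=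
  pl_zsmul (parallelogramLaw_natCast hPL) n P

/-- `pl_nsmul` for natural-number valued heights. -/
theorem pl_nsmul_nat (hPL : ∀ P Q : G, h (P + Q) + h (P - Q) = 2 * h P + 2 * h Q)
    (n : ℕ) (P : G) : h (n • P) = n ^ 2 * h P := by
  have := pl_nsmul (parallelogramLaw_natCast hPL) n P
  exact_mod_cast this

/-- **Gram computation** for natural-number valued heights (first form). -/
theorem pl_gram_nat (hPL : ∀ P Q : G, h (P + Q) + h (P - Q) = 2 * h P + 2 * h Q)
    (P₀ Φ Φ₂ : G) (ℓ N : ℕ) (h0 : h P₀ = 1) (h1 : h Φ = ℓ) (h2 : h Φ₂ = ℓ ^ 2)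
    (h01 : h (Φ - P₀) = N) (h12 : h (Φ₂ - Φ) = ℓ * N)
    (hsq : h (Φ₂ + (2 : ℤ) • Φ + P₀) = h (Φ + P₀) ^ 2) :
    h (Φ₂ - ((ℓ : ℤ) + 1 - N) • Φ + (ℓ : ℤ) • P₀) = 0 := by
  have := pl_gram (parallelogramLaw_natCast hPL) P₀ Φ Φ₂ (ℓ : ℤ) (N : ℤ)
    (by exact_mod_cast h0) (by exact_mod_cast h1) (by exact_mod_cast h2)
    (by exact_mod_cast h01) (by exact_mod_cast h12) (by exact_mod_cast hsq)
  exact_mod_cast this

/-- **Gram computation** for natural-number valued heights (second form). -/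
theorem pl_gram_nat' (hPL : ∀ P Q : G, h (P + Q) + h (P - Q) = 2 * h P + 2 * h Q)
    (P₀ Φ Φ₂ : G) (ℓ N : ℕ) (h0 : h P₀ = 1) (h1 : h Φ = ℓ) (h2 : h Φ₂ = ℓ ^ 2)
    (h01 : h (Φ - P₀) = N) (h12 : h (Φ₂ - Φ) = ℓ * N)
    (hmul : h (Φ₂ - P₀) = h (Φ - P₀) * h (Φ + P₀)) :
    h (Φ₂ - ((ℓ : ℤ) + 1 - N) • Φ + (ℓ : ℤ) • P₀) = 0 := by
  have := pl_gram' (parallelogramLaw_natCast hPL) P₀ Φ Φ₂ (ℓ : ℤ) (N : ℤ)
    (by exact_mod_cast h0) (by exact_mod_cast h1) (by exact_mod_cast h2)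
    (by exact_mod_cast h01) (by exact_mod_cast h12) (by exact_mod_cast hmul)
  exact_mod_cast this

/-- Hasse-type inequality from the parallelogram law: the binary form
`m² h P + m n B(P,Q) + n² h Q` takes nonnegative values, hence `B(P,Q)² ≤ 4 h P h Q`. -/
theorem pl_pairing_sq_le (hPL : ∀ P Q : G, h (P + Q) + h (P - Q) = 2 * h P + 2 * h Q)
    (P Q : G) :
    (plPairing (fun P => (h P : ℤ)) P Q) ^ 2 ≤ 4 * (h P : ℤ) * (h Q : ℤ) := by
  have hPL' := parallelogramLaw_natCast hPL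
  set B := plPairing (fun P => (h P : ℤ)) P Q with hB
  have key : ∀ m n : ℤ, 0 ≤ m ^ 2 * (h P : ℤ) + n ^ 2 * (h Q : ℤ) + m * n * B := by
    intro m n
    have := pl_two_var hPL' m n P Q
    rw [← hB] at this
    have h2 : (0 : ℤ) ≤ (h (m • P + n • Q) : ℤ) := Int.natCast_nonneg _
    linarith
  by_contra hlt
  push Not at hlt
  -- evaluate the form at (m, n) = (B, -2 h P)
  have k1 := key B (-(2 * (h P : ℤ)))
  have hP0 : (0 : ℤ) ≤ (h P : ℤ) := Int.natCast_nonneg _
  rcases hP0.eq_or_lt with hP | hP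
  · -- h P = 0: then B = 0
    rw [← hP] at hlt k1
    have k2 := key 1 (-B)
    have k3 := key 1 B
    rw [← hP] at k2 k3
    nlinarith [sq_nonneg B, key B 1, key (-B) 1, key 1 (-(h Q : ℤ) - 1), key 1 ((h Q : ℤ) + 1),
      key ((h Q : ℤ) + 1) (-B), key (-(h Q : ℤ) - 1) B]
  · have : (h P : ℤ) * (4 * (h P : ℤ) * (h Q : ℤ) - B ^ 2) ≥ 0 := by nlinarith
    nlinarith

end Nat

end Fermat.Agent.H77
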