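/-
P-ES / ES-A, package MF (helper77), algebraic core (Mathlib only): the degree argument.

Let `F ⊆ L` be fields over `k` (characteristic `0`), `t ∈ F`, and suppose `F` is the field of
fractions of `k[S]` for a finite set `S`, of degree at least `d₀` over `k(t)`.  If every element
of `k[S, x]` is a root of a monic polynomial of degree `d₀` over `k[t]`, then `x ∈ F`.
-/
import Mathlib

set_option autoImplicit false

noncomputable section

open Polynomial IntermediateField

namespace Fermat.Agent.H77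

section DegreeArgument

variable {k L : Type} [Field k] [CharZero k] [Field L] [Algebra k L]

/-- The polynomial `∑_{i ≤ d} c_i Y^i`. -/
def esmPoly {K : Type} [Field K] (d : ℕ) (c : ℕ → K) : K[X] :=
  ∑ i ∈ Finset.range (d + 1), C (c i) * X ^ i

theorem esmPoly_coeff {K : Type} [Field K] (d : ℕ) (c : ℕ → K) (n : ℕ) (hn : n ≤ d) :
    (esmPoly d c).coeff n = c n := by
  classical
  unfold esmPoly
  rw [finsetSum_coeff]
  rw [Finset.sum_eq_single n]
  · rw [coeff_C_mul, coeff_X_pow, if_pos rfl, mul_one]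
  · intro i _ hin
    rw [coeff_C_mul, coeff_X_pow, if_neg (fun h => hin h.symm), mul_zero]
  · intro h
    exact absurd (Finset.mem_range.mpr (Nat.lt_succ_of_le hn)) h

theorem esmPoly_natDegree_le {K : Type} [Field K] (d : ℕ) (c : ℕ → K) :
    (esmPoly d c).natDegree ≤ d := by
  unfold esmPoly
  refine natDegree_sum_le_of_forall_le _ _ (fun i hi => ?_)
  exact (natDegree_C_mul_X_pow_le _ _).trans (Nat.lt_succ_iff.mp (Finset.mem_range.mp hi))

theorem esmPoly_ne_zero {K : Type} [Field K] (d : ℕ) (c : ℕ → K) (hc : c d = 1) :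
    esmPoly d c ≠ 0 := by
  intro h0
  have h1 := esmPoly_coeff d c d le_rfl
  rw [h0, hc, coeff_zero] at h1
  exact zero_ne_one h1

theorem esmPoly_aeval {K A : Type} [Field K] [CommRing A] [Algebra K A] (d : ℕ) (c : ℕ → K)
    (a : A) :
    aeval a (esmPoly d c) = ∑ i ∈ Finset.range (d + 1), algebraMap K A (c i) * a ^ i := by
  unfold esmPoly
  rw [map_sum]
  refine Finset.sum_congr rfl (fun i _ => ?_)
  rw [map_mul, aeval_C, map_pow, aeval_X]

/-- A root of `G(p Y)` from a root of `G`. -/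
theorem esm_natDegree_minpoly_le {K : Type} [Field K] [Algebra K L] (γ : L) (p : K) (hp : p ≠ 0)
    (G : K[X]) (hG : G ≠ 0) (hroot : aeval (algebraMap K L p * γ) G = 0) :
    (minpoly K γ).natDegree ≤ G.natDegree := by
  set q : K[X] := C p * X with hq
  have hqdeg : q.natDegree = 1 := by
    rw [hq, natDegree_C_mul_X p hp]
  have hcomp : aeval γ (G.comp q) = 0 := by
    rw [aeval_comp]
    have : aeval γ q = algebraMap K L p * γ := by
      rw [hq, map_mul, aeval_C, aeval_X]
    rw [this]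
    exact hroot
  have hne : G.comp q ≠ 0 := by
    intro h0
    have h1 : (G.comp q).natDegree = G.natDegree * q.natDegree := natDegree_comp
    rw [h0, natDegree_zero, hqdeg, mul_one] at h1
    -- `G` is a nonzero constant
    have hGc : G = C (G.coeff 0) := eq_C_of_natDegree_eq_zero h1.symm
    rw [hGc, C_comp] at h0
    rw [hGc] at hG
    exact hG h0
  have hle := minpoly.degree_le_of_ne_zero K γ hne hcomp
  have h2 := natDegree_le_natDegree hle
  have h3 : (G.comp q).natDegree = G.natDegree * q.natDegree := natDegree_comp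
  rw [h3, hqdeg, mul_one] at h2
  exact h2

/-- **Degree argument.** -/
theorem esm_mem_of_degree_le (F : IntermediateField k L) (tF : F) (d₀ : ℕ)
    (hdeg : d₀ ≤ Module.finrank k⟮tF⟯ F)
    (S : Set L) (hS : S.Finite) (htS : (tF : L) ∈ S)
    (hFS : ∀ f ∈ F, ∃ r ∈ Algebra.adjoin k S, ∃ s ∈ Algebra.adjoin k S, s ≠ 0 ∧ f * s = r)
    (x : L)
    (hrel : ∀ a ∈ Algebra.adjoin k (insert x S), ∃ P : ℕ → k[X], P d₀ = 1 ∧
      ∑ i ∈ Finset.range (d₀ + 1), aeval (tF : L) (P i) * a ^ i = 0) :
    x ∈ F := by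
  classical
  set t : L := (tF : L) with ht
  set T : Set L := insert x S with hT
  have hTfin : T.Finite := hS.insert x
  have : Finite T := hTfin.to_subtype
  have htT : t ∈ T := Set.mem_insert_of_mem _ htS
  have haev : ∀ r : k[X], aeval t r ∈ Algebra.adjoin k T := fun r =>
    Algebra.adjoin_mono (Set.singleton_subset_iff.mpr htT) (aeval_mem_adjoin_singleton k t)
  -- the coefficient map `k[X] → k(t)`
  let κ : k[X] →ₐ[k] k⟮tF⟯ := aeval (AdjoinSimple.gen k tF)
  have hκ : ∀ p : k[X], algebraMap k⟮tF⟯ L (κ p) = aeval t p := by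
    intro p
    have h1 : algebraMap k⟮tF⟯ L (κ p)
        = (algebraMap F L) ((algebraMap k⟮tF⟯ F) (aeval (AdjoinSimple.gen k tF) p)) := rfl
    rw [h1, ← aeval_algebraMap_apply, AdjoinSimple.algebraMap_gen, ← aeval_algebraMap_apply]
    rfl
  -- every element of `k[T]` is a root of a nonzero polynomial of degree `≤ d₀`
  have hint : ∀ a ∈ Algebra.adjoin k T, ∃ G : (k⟮tF⟯)[X], G ≠ 0 ∧ G.natDegree ≤ d₀ ∧
      aeval a G = 0 := by
    intro a ha
    obtain ⟨P, hP1, hP⟩ := hrel a ha
    refine ⟨esmPoly d₀ (fun i => κ (P i)), esmPoly_ne_zero _ _ ?_, esmPoly_natDegree_le _ _, ?_⟩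
    · show κ (P d₀) = 1
      rw [hP1, map_one]
    · rw [esmPoly_aeval, ← hP]
      refine Finset.sum_congr rfl (fun i _ => ?_)
      rw [hκ]
  have hTint : ∀ y ∈ T, IsIntegral k⟮tF⟯ y := by
    intro y hy
    obtain ⟨G, hG0, -, hG⟩ := hint y (Algebra.subset_adjoin hy)
    exact (isAlgebraic_iff_isIntegral).mp ⟨G, hG0, hG⟩
  set M : IntermediateField k⟮tF⟯ L := IntermediateField.adjoin k⟮tF⟯ T with hM
  have hMfin : FiniteDimensional k⟮tF⟯ M := IntermediateField.finiteDimensional_adjoin hTint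
  -- the degree of `M` is at most `d₀`
  have hMle : Module.finrank k⟮tF⟯ M ≤ d₀ := by
    obtain ⟨γ, hγ⟩ := Field.exists_primitive_element k⟮tF⟯ M
    have h1 := (Field.primitive_element_iff_minpoly_natDegree_eq k⟮tF⟯ γ).mp hγ
    rw [← h1, IntermediateField.minpoly_eq γ]
    have hγmem : (γ : L) ∈ Algebra.adjoin k⟮tF⟯ T := by
      have := IntermediateField.adjoin_toSubalgebra_of_isAlgebraic
        (F := k⟮tF⟯) (S := T) (fun y hy => (hTint y hy).isAlgebraic)
      rw [← this]
      exact γ.2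
    -- clearing denominators
    have hQ : ∀ b ∈ Algebra.adjoin k⟮tF⟯ T, ∃ s : k[X], aeval t s ≠ 0 ∧
        aeval t s * b ∈ Algebra.adjoin k T := by
      intro b hb
      induction hb using Algebra.adjoin_induction with
      | mem y hy =>
        exact ⟨1, by simp, by simpa using Algebra.subset_adjoin hy⟩
      | algebraMap c =>
        obtain ⟨r, s, hrs⟩ := (IntermediateField.mem_adjoin_simple_iff k (c : F)).mp c.2
        have hcL : algebraMap k⟮tF⟯ L c = aeval t r / aeval t s := by
          have h1 : algebraMap k⟮tF⟯ L c = algebraMap F L (c : F) := rfl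
          rw [h1, hrs, map_div₀, ← aeval_algebraMap_apply, ← aeval_algebraMap_apply]
          rfl
        by_cases hs : aeval t s = 0
        · refine ⟨1, by simp, ?_⟩
          rw [hcL, hs, div_zero, mul_zero]
          exact zero_mem _
        · refine ⟨s, hs, ?_⟩
          rw [hcL, mul_div_cancel₀ _ hs]
          exact haev r
      | add b₁ b₂ _ _ h₁ h₂ =>
        obtain ⟨s₁, hs₁, ha₁⟩ := h₁
        obtain ⟨s₂, hs₂, ha₂⟩ := h₂
        refine ⟨s₁ * s₂, by rw [map_mul]; exact mul_ne_zero hs₁ hs₂, ?_⟩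
        have e : aeval t (s₁ * s₂) * (b₁ + b₂)
            = aeval t s₂ * (aeval t s₁ * b₁) + aeval t s₁ * (aeval t s₂ * b₂) := by
          rw [map_mul]; ring
        rw [e]
        exact add_mem (mul_mem (haev s₂) ha₁)
          (mul_mem (haev s₁) ha₂)
      | mul b₁ b₂ _ _ h₁ h₂ =>
        obtain ⟨s₁, hs₁, ha₁⟩ := h₁
        obtain ⟨s₂, hs₂, ha₂⟩ := h₂
        refine ⟨s₁ * s₂, by rw [map_mul]; exact mul_ne_zero hs₁ hs₂, ?_⟩
        have e : aeval t (s₁ * s₂) * (b₁ * b₂)
            = (aeval t s₁ * b₁) * (aeval t s₂ * b₂) := by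
          rw [map_mul]; ring
        rw [e]
        exact mul_mem ha₁ ha₂
    obtain ⟨s, hs, hy⟩ := hQ _ hγmem
    obtain ⟨G, hG0, hGd, hG⟩ := hint _ hy
    have hp : κ s ≠ 0 := by
      intro h0
      apply hs
      rw [← hκ, h0, map_zero]
    have hroot : aeval (algebraMap k⟮tF⟯ L (κ s) * (γ : L)) G = 0 := by
      rw [hκ]; exact hG
    exact (esm_natDegree_minpoly_le (γ : L) (κ s) hp G hG0 hroot).trans hGd
  -- `F` inside `L`, as a `k(t)`-subspace
  set F'' : Submodule k⟮tF⟯ L :=
    LinearMap.range (IsScalarTower.toAlgHom k⟮tF⟯ F L).toLinearMap with hF''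
  have hF''rank : Module.finrank k⟮tF⟯ F'' = Module.finrank k⟮tF⟯ F :=
    LinearMap.finrank_range_of_inj (fun a b hab => Subtype.ext hab)
  set M' : Submodule k⟮tF⟯ L := M.toSubalgebra.toSubmodule with hM'
  have hM'fin : FiniteDimensional k⟮tF⟯ M' := hMfin
  have hM'rank : Module.finrank k⟮tF⟯ M' = Module.finrank k⟮tF⟯ M := rfl
  have hSM : ∀ r ∈ Algebra.adjoin k S, r ∈ M := by
    intro r hr
    induction hr using Algebra.adjoin_induction with
    | mem y hy => exact IntermediateField.subset_adjoin _ _ (Set.mem_insert_of_mem _ hy)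
    | algebraMap c =>
      have : algebraMap k L c = algebraMap k⟮tF⟯ L (algebraMap k k⟮tF⟯ c) := rfl
      rw [this]
      exact M.algebraMap_mem _
    | add a b _ _ ha hb => exact add_mem ha hb
    | mul a b _ _ ha hb => exact mul_mem ha hb
  have hle : F'' ≤ M' := by
    rintro _ ⟨f, rfl⟩
    show (f : L) ∈ M
    obtain ⟨r, hr, s, hs, hs0, hfs⟩ := hFS (f : L) f.2
    have e : (f : L) = r * s⁻¹ := by
      rw [← hfs, mul_assoc, mul_inv_cancel₀ hs0, mul_one]
    rw [e]
    exact mul_mem (hSM r hr) (inv_mem (hSM s hs))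
  have heq : F'' = M' :=
    Submodule.eq_of_le_of_finrank_le hle (by rw [hM'rank, hF''rank]; exact hMle.trans hdeg)
  have hxM : x ∈ M' := IntermediateField.subset_adjoin _ _ (Set.mem_insert _ _)
  rw [← heq] at hxM
  obtain ⟨f, hf⟩ := hxM
  rw [← hf]
  exact f.2

end DegreeArgument

end Fermat.Agent.H77

end
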