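/-
P-ES / ES-A, package MF (helper77, second seat): a holomorphic `Γ₀(N)`-invariant function on `ℍ`
all of whose `SL(2,ℤ)`-translates have at most exponential growth at `i∞` has its `q`-expansion
in the function field `FC N` of `X₀(N)` over `ℂ` (`ModularFunctionStatement`,
`HolModularStatement`), from the packages CORE-C, REP and DEG-C.

Route: (1) the `q`-expansion `x` exists; (2) every element of `ℂ[j(q^d), x]` is the `q`-expansion
of such a function, hence (coset product polynomial, `Fermat.Agent.H85.exists_poly_relation`) a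
root of a monic polynomial of degree `[SL(2,ℤ) : Γ₀(N)]` over `ℂ[j]`; (3) the degree argument
`Fermat.Agent.H77.esm_mem_of_degree_le`.
-/
import Fermat.Agent.H94.EsA.Interfaces
import Fermat.Agent.H23.EsA.Parts
import Fermat.Agent.H85.Gen16Coset
import Fermat.Agent.H82.CuspMero
import Fermat.Agent.H77.EsAMFAlg

set_option autoImplicit false

noncomputable section

open UpperHalfPlane Function Polynomial
open scoped MatrixGroups Manifold Topology Real

namespace Fermat.Agent.H77

open Fermat.Agent.H44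

/-! ### (1) Existence of the `q`-expansion -/

/-- A holomorphic function on `ℍ`, invariant under `z ↦ z + 1` and of at most exponential growth
at `i∞`, has a Laurent `q`-expansion. -/
theorem esm_exists_laurentRel {h : ℍ → ℂ} (hmd : MDiff h)
    (hper : ∀ z : ℍ, h (ModularGroup.T • z) = h z) (M : ℕ) (C Y : ℝ)
    (hgrow : ∀ z : ℍ, Y ≤ z.im → ‖h z‖ ≤ C * Real.exp (2 * π * M * z.im)) :
    ∃ x : LaurentSeries ℂ, LaurentRel h x := by
  have hper' : Function.Periodic (h ∘ ofComplex) ((1 : ℝ) : ℂ) := by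
    have := Fermat.Agent.H82.cm_periodic_comp_ofComplex 1 h (by simpa using hper)
    simpa using this
  have hnice : IsNiceFn (qqFn ^ M * h) := by
    refine ⟨?_, (isNiceFn_qqFn.pow M).2.1.mul hmd, ?_⟩
    · intro w
      have h1 := (isNiceFn_qqFn.pow M).1 w
      have h2 := hper' w
      simp only [Function.comp_apply, Pi.mul_apply] at h1 h2 ⊢
      rw [h1, h2]
    · rw [UpperHalfPlane.isBoundedAtImInfty_iff]
      refine ⟨C, Y, fun z hz => ?_⟩
      have hb := hgrow z hz
      rw [Pi.mul_apply, Pi.pow_apply, norm_mul, norm_pow]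
      have hq : ‖qqFn z‖ = Real.exp (-(2 * π * z.im)) := by
        unfold qqFn
        rw [Function.Periodic.norm_qParam]
        congr 1
        rw [UpperHalfPlane.coe_im]
        ring
      rw [hq, ← Real.exp_nat_mul]
      have hexp : Real.exp ((M : ℝ) * -(2 * π * z.im)) * Real.exp (2 * π * M * z.im) = 1 := by
        rw [← Real.exp_add]
        have : (M : ℝ) * -(2 * π * z.im) + 2 * π * M * z.im = 0 := by ring
        rw [this, Real.exp_zero]
      calc Real.exp ((M : ℝ) * -(2 * π * z.im)) * ‖h z‖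
          ≤ Real.exp ((M : ℝ) * -(2 * π * z.im)) * (C * Real.exp (2 * π * M * z.im)) :=
            mul_le_mul_of_nonneg_left hb (Real.exp_pos _).le
        _ = C := by
            rw [mul_comm C, ← mul_assoc, hexp, one_mul]
  refine ⟨HahnSeries.single (-(M : ℤ)) (1 : ℂ) *
    HahnSeries.ofPowerSeries ℤ ℂ (qExpansion 1 (qqFn ^ M * h)), M, hnice, ?_⟩
  rw [← mul_assoc, HahnSeries.single_mul_single, add_neg_cancel, one_mul]
  have : (HahnSeries.single (0 : ℤ) (1 : ℂ) : LaurentSeries ℂ) = 1 := rfl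
  rw [this, one_mul]

/-! ### (2) Good Laurent series -/

/-- A Laurent series is *good* (of level `N`) if it is the `q`-expansion of a holomorphic
`Γ₀(N)`-invariant function on `ℍ` all of whose translates have exponential growth at `i∞`. -/
def EsmGood (N : ℕ) (y : LaurentSeries ℂ) : Prop :=
  ∃ g : ℍ → ℂ, LaurentRel g y ∧
    (∀ β ∈ CongruenceSubgroup.Gamma0 N, ∀ z : ℍ, g (β • z) = g z) ∧
    ∀ γ : SL(2, ℤ), Fermat.Agent.H85.ExpGrowth (fun z => g (γ • z))

theorem EsmGood.add {N : ℕ} {y y' : LaurentSeries ℂ} (hy : EsmGood N y) (hy' : EsmGood N y') :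
    EsmGood N (y + y') := by
  obtain ⟨g, hg, hinv, hgr⟩ := hy
  obtain ⟨g', hg', hinv', hgr'⟩ := hy'
  refine ⟨g + g', hg.add hg', fun β hβ z => ?_, fun γ => ?_⟩
  · rw [Pi.add_apply, Pi.add_apply, hinv β hβ, hinv' β hβ]
  · exact (hgr γ).add (hgr' γ)

theorem EsmGood.mul {N : ℕ} {y y' : LaurentSeries ℂ} (hy : EsmGood N y) (hy' : EsmGood N y') :
    EsmGood N (y * y') := by
  obtain ⟨g, hg, hinv, hgr⟩ := hy
  obtain ⟨g', hg', hinv', hgr'⟩ := hy'
  refine ⟨g * g', hg.mul hg', fun β hβ z => ?_, fun γ => ?_⟩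
  · rw [Pi.mul_apply, Pi.mul_apply, hinv β hβ, hinv' β hβ]
  · exact (hgr γ).mul (hgr' γ)

theorem esmGood_algebraMap (N : ℕ) (c : ℂ) :
    EsmGood N (algebraMap ℂ (LaurentSeries ℂ) c) := by
  refine ⟨fun _ => c, ?_, fun _ _ _ => rfl, fun _ => Fermat.Agent.H85.expGrowth_const c⟩
  rw [ModularCurve.algebraMap_laurentSeries_eq_single]
  exact laurentRel_const c

theorem esmGood_of_mem_adjoin (N : ℕ) {T : Set (LaurentSeries ℂ)} (hT : ∀ y ∈ T, EsmGood N y)
    {a : LaurentSeries ℂ} (ha : a ∈ Algebra.adjoin ℂ T) : EsmGood N a := by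
  induction ha using Algebra.adjoin_induction with
  | mem y hy => exact hT y hy
  | algebraMap c => exact esmGood_algebraMap N c
  | add a b _ _ ha hb => exact ha.add hb
  | mul a b _ _ ha hb => exact ha.mul hb

/-! ### (3) Polynomial relations for Laurent series -/

theorem esm_laurentRel_pow {g : ℍ → ℂ} {y : LaurentSeries ℂ} (hg : LaurentRel g y) (n : ℕ) :
    LaurentRel (g ^ n) (y ^ n) := by
  induction n with
  | zero => simpa using laurentRel_one
  | succ n ih => rw [pow_succ, pow_succ]; exact ih.mul hg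

theorem esm_laurentRel_sum {ι : Type} (s : Finset ι) (g : ι → ℍ → ℂ) (y : ι → LaurentSeries ℂ)
    (h : ∀ i ∈ s, LaurentRel (g i) (y i)) :
    LaurentRel (∑ i ∈ s, g i) (∑ i ∈ s, y i) := by
  classical
  induction s using Finset.induction_on with
  | empty => simpa using laurentRel_zero
  | insert i s hi ih =>
    rw [Finset.sum_insert hi, Finset.sum_insert hi]
    exact (h i (Finset.mem_insert_self i s)).add
      (ih (fun j hj => h j (Finset.mem_insert_of_mem hj)))

theorem esm_laurentRel_eval {J : ℍ → ℂ} {t : LaurentSeries ℂ} (hJ : LaurentRel J t)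
    (P : ℂ[X]) : LaurentRel (fun z => P.eval (J z)) (aeval t P) := by
  have e1 : (fun z => P.eval (J z))
      = ∑ i ∈ Finset.range (P.natDegree + 1), (fun _ : ℍ => P.coeff i) * J ^ i := by
    funext z
    rw [eval_eq_sum_range, Finset.sum_apply]
    rfl
  have e2 : aeval t P
      = ∑ i ∈ Finset.range (P.natDegree + 1), algebraMap ℂ (LaurentSeries ℂ) (P.coeff i) * t ^ i :=
    aeval_eq_sum_range t
  rw [e1, e2]
  refine esm_laurentRel_sum _ _ _ (fun i _ => ?_)
  refine LaurentRel.mul ?_ (esm_laurentRel_pow hJ i)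
  rw [ModularCurve.algebraMap_laurentSeries_eq_single]
  exact laurentRel_const _

/-- Every good Laurent series is a root of a monic polynomial of degree `[SL(2,ℤ) : Γ₀(N)]` with
coefficients polynomials in (the `q`-expansion of) `j`. -/
theorem esm_poly_relation (N : ℕ) [NeZero N] {t : LaurentSeries ℂ}
    (ht : LaurentRel Fermat.Agent.H23.jfun t) {y : LaurentSeries ℂ} (hy : EsmGood N y) :
    ∃ P : ℕ → ℂ[X], P (Nat.card (SL(2, ℤ) ⧸ CongruenceSubgroup.Gamma0 N)) = 1 ∧
      ∑ i ∈ Finset.range (Nat.card (SL(2, ℤ) ⧸ CongruenceSubgroup.Gamma0 N) + 1),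
        aeval t (P i) * y ^ i = 0 := by
  obtain ⟨g, hg, hinv, hgr⟩ := hy
  obtain ⟨P, hP1, hP⟩ := Fermat.Agent.H85.exists_poly_relation
    (Γ := CongruenceSubgroup.Gamma0 N) hg.mdifferentiable hinv hgr
  refine ⟨P, hP1, ?_⟩
  have hrel : LaurentRel
      (∑ i ∈ Finset.range (Nat.card (SL(2, ℤ) ⧸ CongruenceSubgroup.Gamma0 N) + 1),
        (fun z => (P i).eval (Fermat.Agent.H23.jfun z)) * g ^ i)
      (∑ i ∈ Finset.range (Nat.card (SL(2, ℤ) ⧸ CongruenceSubgroup.Gamma0 N) + 1),
        aeval t (P i) * y ^ i) :=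
    esm_laurentRel_sum _ _ _ (fun i _ => (esm_laurentRel_eval ht (P i)).mul
      (esm_laurentRel_pow hg i))
  have hzero : (∑ i ∈ Finset.range (Nat.card (SL(2, ℤ) ⧸ CongruenceSubgroup.Gamma0 N) + 1),
        (fun z => (P i).eval (Fermat.Agent.H23.jfun z)) * g ^ i) = 0 := by
    funext z
    rw [Finset.sum_apply]
    exact hP z
  rw [hzero] at hrel
  exact hrel.unique_right laurentRel_zero

/-! ### (4) The statements -/

/-- The generators `j(q^d)`, `d ∣ N`, as Laurent series. -/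
def esmGens (N : ℕ) [NeZero N] : Set (LaurentSeries ℂ) :=
  {y | ∃ (d : ℕ) (_ : NeZero d) (hd : d ∣ N),
    y = ((Fermat.Agent.H23.EsA.jC N d hd : ↥(Fermat.Agent.H23.EsA.FC N)) : LaurentSeries ℂ)}

theorem esmGens_finite (N : ℕ) [NeZero N] : (esmGens N).Finite := by
  have hsub : esmGens N ⊆ Set.range (fun d : {d : ℕ // d ∈ Nat.divisors N} =>
      haveI : NeZero d.1 := ⟨(Nat.pos_of_mem_divisors d.2).ne'⟩
      ((Fermat.Agent.H23.EsA.jC N d.1 (Nat.dvd_of_mem_divisors d.2) :
        ↥(Fermat.Agent.H23.EsA.FC N)) : LaurentSeries ℂ)) := by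
    rintro y ⟨d, hd0, hd, rfl⟩
    exact ⟨⟨d, Nat.mem_divisors.mpr ⟨hd, NeZero.ne N⟩⟩, rfl⟩
  exact (Set.finite_range _).subset hsub

theorem esm_map_RsubC (N : ℕ) [NeZero N] {r : ↥(Fermat.Agent.H23.EsA.FC N)}
    (hr : r ∈ Fermat.Agent.H23.EsA.RsubC N) :
    (r : LaurentSeries ℂ) ∈ Algebra.adjoin ℂ (esmGens N) := by
  induction hr using Algebra.adjoin_induction with
  | mem y hy =>
    obtain ⟨d, hd0, hd, rfl⟩ := hy
    exact Algebra.subset_adjoin ⟨d, hd0, hd, rfl⟩
  | algebraMap c => exact Subalgebra.algebraMap_mem _ c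
  | add a b _ _ ha hb => exact add_mem ha hb
  | mul a b _ _ ha hb => exact mul_mem ha hb

/-- Core of A-MF, with the membership of `T` in `Γ₀(N)` and all hypotheses in the shape of
helper23's interface. -/
theorem esm_core (N : ℕ) [NeZero N]
    (hcore : Fermat.Agent.H23.EsA.CoreCStatement N)
    (hrep : Fermat.Agent.H23.EsA.RsubRepStatement N)
    (hdeg : Fermat.Agent.H23.EsA.DegreeCStatement N)
    (h : ℍ → ℂ) (hmd : MDiff h)
    (hinv : ∀ β ∈ CongruenceSubgroup.Gamma0 N, ∀ z : ℍ, h (β • z) = h z)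
    (hgrow : ∀ γ : SL(2, ℤ), Fermat.Agent.H85.ExpGrowth (fun z => h (γ • z))) :
    ∃ x : ↥(Fermat.Agent.H23.EsA.FC N), LaurentRel h (x : LaurentSeries ℂ) := by
  -- the `q`-expansion
  have hT : ModularGroup.T ∈ CongruenceSubgroup.Gamma0 N := by
    rw [CongruenceSubgroup.Gamma0_mem]
    simp [ModularGroup.T]
  obtain ⟨M, C, Y, -, hb⟩ := hgrow 1
  obtain ⟨x, hx⟩ := esm_exists_laurentRel hmd (fun z => hinv _ hT z) M C Y
    (fun z hz => by simpa using hb z hz)
  -- `j`
  have ht : LaurentRel Fermat.Agent.H23.jfun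
      ((Fermat.Agent.H23.EsA.jC N 1 (one_dvd N) : ↥(Fermat.Agent.H23.EsA.FC N)) :
        LaurentSeries ℂ) := by
    have h1 := hcore.1 1 inferInstance (one_dvd N)
    have e : (fun z => Fermat.Agent.H23.jfun (Fermat.Agent.H23.scaleH 1 z))
        = Fermat.Agent.H23.jfun := by
      funext z
      congr 1
      apply UpperHalfPlane.ext
      simp [Fermat.Agent.H23.scaleH]
    rw [Fermat.Agent.H23.EsA.Rep, e] at h1
    exact h1
  -- good elements
  have hgoodT : ∀ y ∈ insert x (esmGens N), EsmGood N y := by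
    intro y hy
    rcases hy with rfl | ⟨d, hd0, hd, rfl⟩
    · exact ⟨h, hx, hinv, hgrow⟩
    · obtain ⟨g, hg, -, hginv, hggr⟩ := hrep (Fermat.Agent.H23.EsA.jC N d hd)
        (Algebra.subset_adjoin ⟨d, hd0, hd, rfl⟩)
      refine ⟨g, hg, hginv, fun γ => ?_⟩
      obtain ⟨M', C', Y', hb'⟩ := hggr γ
      exact ⟨M', |C'|, Y', abs_nonneg _, fun z hz => (hb' z hz).trans
        (mul_le_mul_of_nonneg_right (le_abs_self _) (Real.exp_pos _).le)⟩
  have hxF : x ∈ Fermat.Agent.H23.EsA.FC N := by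
    refine esm_mem_of_degree_le (Fermat.Agent.H23.EsA.FC N)
      (Fermat.Agent.H23.EsA.jC N 1 (one_dvd N))
      (Nat.card (SL(2, ℤ) ⧸ CongruenceSubgroup.Gamma0 N)) (le_of_eq hdeg.2.2.symm)
      (esmGens N) (esmGens_finite N) ⟨1, inferInstance, one_dvd N, rfl⟩ ?_ x ?_
    · intro f hf
      obtain ⟨r, s, hr, hs, hs0, hfs⟩ := hcore.2 ⟨f, hf⟩
      refine ⟨(r : LaurentSeries ℂ), esm_map_RsubC N hr, (s : LaurentSeries ℂ),
        esm_map_RsubC N hs, fun h0 => hs0 (Subtype.ext h0), ?_⟩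
      rw [← hfs]
      rfl
    · intro a ha
      exact esm_poly_relation N ht (esmGood_of_mem_adjoin N hgoodT ha)
  exact ⟨⟨x, hxF⟩, hx⟩

/-- **A-MF** (`Fermat.Agent.H94.EsA.ModularFunctionStatement`), from CORE-C, REP and DEG-C. -/
theorem esm_modularFunctionStatement (N : ℕ) [NeZero N]
    (hcore : Fermat.Agent.H23.EsA.CoreCStatement N)
    (hrep : Fermat.Agent.H23.EsA.RsubRepStatement N)
    (hdeg : Fermat.Agent.H23.EsA.DegreeCStatement N) :
    Fermat.Agent.H94.EsA.ModularFunctionStatement N := by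
  intro h hmd hinv hgrow
  exact esm_core N hcore hrep hdeg h hmd (fun β hβ z => hinv ⟨β, hβ⟩ z) hgrow

/-- **[HOL]** (`Fermat.Agent.H23.EsA.HolModularStatement`), from CORE-C, REP and DEG-C. -/
theorem esm_holModularStatement (N : ℕ) [NeZero N]
    (hcore : Fermat.Agent.H23.EsA.CoreCStatement N)
    (hrep : Fermat.Agent.H23.EsA.RsubRepStatement N)
    (hdeg : Fermat.Agent.H23.EsA.DegreeCStatement N) :
    Fermat.Agent.H23.EsA.HolModularStatement N := by
  intro h hmd hinv hgrow
  refine esm_core N hcore hrep hdeg h hmd hinv (fun γ => ?_)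
  obtain ⟨M', C', Y', hb'⟩ := hgrow γ
  exact ⟨M', |C'|, Y', abs_nonneg _, fun z hz => (hb' z hz).trans
    (mul_le_mul_of_nonneg_right (le_abs_self _) (Real.exp_pos _).le)⟩

end Fermat.Agent.H77

end
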