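/-
P-ES / ES-A, package MF (helper77): `ModularFunctionStatement` and `HolModularStatement` from
DEG-C alone (CORE-C and REP are the landed theorems of helper13), together with the converse
package GROW in unconditional form.
-/
import Fermat.Agent.H77.EsAMF
import Fermat.Agent.H77.EsAGrow
import Fermat.Agent.H13.EsACoreC

set_option autoImplicit false

namespace Fermat.Agent.H77

/-- **A-MF** from DEG-C. -/
theorem esm_modularFunctionStatement_of_degreeC (N : ℕ) [NeZero N]
    (hdeg : Fermat.Agent.H23.EsA.DegreeCStatement N) :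
    Fermat.Agent.H94.EsA.ModularFunctionStatement N :=
  esm_modularFunctionStatement N (Fermat.Agent.H13.esaCoreC N) (Fermat.Agent.H13.esaRsubRep N) hdeg

/-- **[HOL]** from DEG-C. -/
theorem esm_holModularStatement_of_degreeC (N : ℕ) [NeZero N]
    (hdeg : Fermat.Agent.H23.EsA.DegreeCStatement N) :
    Fermat.Agent.H23.EsA.HolModularStatement N :=
  esm_holModularStatement N (Fermat.Agent.H13.esaCoreC N) (Fermat.Agent.H13.esaRsubRep N) hdeg

/-- **A-GROW**, unconditional. -/
theorem esg_invariantGrowth (N : ℕ) [NeZero N] :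
    Fermat.Agent.H94.EsA.InvariantGrowthStatement N :=
  esg_invariantGrowthStatement N (Fermat.Agent.H13.esaCoreC N) (Fermat.Agent.H13.esaRsubRep N)

/-- **[REP-REG]**, unconditional. -/
theorem esg_repRegular (N : ℕ) [NeZero N] : Fermat.Agent.H23.EsA.RepRegularStatement N :=
  esg_repRegularStatement N (Fermat.Agent.H13.esaCoreC N) (Fermat.Agent.H13.esaRsubRep N)

/-- **A-HOL**, unconditional. -/
theorem esg_holRep (N : ℕ) [NeZero N] : Fermat.Agent.H94.EsA.HolRepStatement N :=
  esg_holRepStatement N (Fermat.Agent.H13.esaCoreC N) (Fermat.Agent.H13.esaRsubRep N)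

end Fermat.Agent.H77
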