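/-
P-PET / PET-M1c (helper77): nonempty open subsets of the upper half plane have positive
hyperbolic volume; a continuous function vanishing almost everywhere vanishes identically.
-/
import Mathlib
import Fermat.Agent.H98.Pet.Interfaces

set_option autoImplicit false

open MeasureTheory UpperHalfPlane

namespace Fermat.Agent.H77

/-- **PET-M1c.**  Nonempty open subsets of `ℍ` have positive hyperbolic volume. -/
theorem pet_openPos : Fermat.Agent.H98.Pet.OpenPosStatement := by
  intro U hU hne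
  rw [UpperHalfPlane.volume_eq_lintegral]
  have hopen : IsOpen ((fun z : ℍ => (z : ℂ)) '' U) :=
    UpperHalfPlane.isOpenEmbedding_coe.isOpenMap U hU
  have hne' : ((fun z : ℍ => (z : ℂ)) '' U).Nonempty := hne.image _
  have hpos : 0 < volume ((fun z : ℍ => (z : ℂ)) '' U) := hopen.measure_pos volume hne'
  have hmeas : Measurable (fun z : ℂ => (((1 / ‖z.im‖₊) ^ 2 : NNReal) : ENNReal)) := by
    fun_prop
  refine ((setLIntegral_pos_iff hmeas).mpr ?_).ne'
  refine lt_of_lt_of_le hpos (measure_mono ?_)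
  rintro _ ⟨z, hz, rfl⟩
  refine ⟨?_, ⟨z, hz, rfl⟩⟩
  rw [Function.mem_support]
  have him : (z : ℂ).im ≠ 0 := z.im_pos.ne'
  have h1 : ‖(z : ℂ).im‖₊ ≠ 0 := nnnorm_ne_zero_iff.mpr him
  have h2 : ((1 / ‖(z : ℂ).im‖₊) ^ 2 : NNReal) ≠ 0 :=
    pow_ne_zero _ (div_ne_zero one_ne_zero h1)
  exact_mod_cast h2

/-- The hyperbolic measure on `ℍ` is positive on nonempty open sets (as a theorem, not an
instance). -/
theorem pet_isOpenPosMeasure : (volume : Measure ℍ).IsOpenPosMeasure :=
  ⟨fun U hU hne => pet_openPos U hU hne⟩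

/-- Two continuous functions on `ℍ` that agree almost everywhere are equal. -/
theorem pet_eq_of_ae_eq {Φ Ψ : ℍ → ℂ} (hΦ : Continuous Φ) (hΨ : Continuous Ψ)
    (h : Φ =ᵐ[(volume : Measure ℍ)] Ψ) : Φ = Ψ := by
  have := pet_isOpenPosMeasure
  exact (Continuous.ae_eq_iff_eq (volume : Measure ℍ) hΦ hΨ).mp h

/-- A continuous function on `ℍ` that vanishes almost everywhere vanishes identically. -/
theorem pet_eq_zero_of_ae_eq_zero {Φ : ℍ → ℂ} (hΦ : Continuous Φ)
    (h : ∀ᵐ z ∂(volume : Measure ℍ), Φ z = 0) : Φ = 0 :=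
  pet_eq_of_ae_eq hΦ continuous_const h

end Fermat.Agent.H77
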