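import Mathlib.FieldTheory.RatFunc.AsPolynomial
import Mathlib.FieldTheory.RatFunc.Basic
import Mathlib.RingTheory.PrincipalIdealDomain
import Mathlib.RingTheory.EuclideanDomain
import Mathlib.Algebra.Polynomial.Degree.Lemmas
import Mathlib.Algebra.Polynomial.BigOperators
import Mathlib.Algebra.Polynomial.FieldDivision
import Mathlib.Tactic.Ring
import Mathlib.Tactic.LinearCombination
import Mathlib.Tactic.FieldSimp
import Mathlib.Tactic.Linarith

/-!
# The degree of a rational function is multiplicative under substitution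

`ratDeg f = max (deg num f) (deg denom f)` for `f : RatFunc K`.

* `ratDeg_div_of_isCoprime`: `ratDeg (p / q) = max (deg p) (deg q)` for coprime `p`, `q`.
* `ratDeg_algHom`: `ratDeg (φ g) = ratDeg g * ratDeg (φ X)` for every `K`-algebra endomorphism
  `φ` of `K(X)`.
* `substAlgHom r hr`: substitution `X ↦ r` for non-constant `r`, with
  `ratDeg_substAlgHom : ratDeg (substAlgHom r hr g) = ratDeg g * ratDeg r`.
* `ratDeg_eq_zero_iff`: degree zero iff constant.
* `homSubst n P A B = ∑ i ≤ n, pᵢ Aⁱ Bⁿ⁻ⁱ` (homogeneous substitution) with coprimality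
  (`isCoprime_homSubst`) and degree (`max_natDegree_homSubst`) statements.
-/

set_option autoImplicit false

namespace Fermat.Agent.H77

open Polynomial

variable {K : Type*} [Field K]

/-- The degree of a rational function: the maximum of the degrees of numerator and
denominator. -/
noncomputable def ratDeg (f : RatFunc K) : ℕ := max f.num.natDegree f.denom.natDegree

theorem ratDeg_def (f : RatFunc K) : ratDeg f = max f.num.natDegree f.denom.natDegree := rfl

/-- Numerator and denominator of a quotient of coprime polynomials have the expected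
degrees. -/
theorem natDegree_num_denom_of_isCoprime {p q : K[X]} (hq : q ≠ 0) (hcop : IsCoprime p q) :
    (algebraMap K[X] (RatFunc K) p / algebraMap K[X] (RatFunc K) q).num.natDegree = p.natDegree ∧
    (algebraMap K[X] (RatFunc K) p / algebraMap K[X] (RatFunc K) q).denom.natDegree =
      q.natDegree := by
  set x := algebraMap K[X] (RatFunc K) p / algebraMap K[X] (RatFunc K) q with hx
  have hnd : x.num * q = p * x.denom := (RatFunc.num_mul_eq_mul_denom_iff hq).mpr rfl
  have hcop' := RatFunc.isCoprime_num_denom x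
  have hd0 := RatFunc.denom_ne_zero x
  have h1 : x.denom ∣ q := by
    have : x.denom ∣ x.num * q := ⟨p, by rw [hnd]; ring⟩
    exact hcop'.symm.dvd_of_dvd_mul_left this
  have h2 : q ∣ x.denom := by
    have : q ∣ p * x.denom := ⟨x.num, by rw [← hnd]; ring⟩
    exact hcop.symm.dvd_of_dvd_mul_left this
  have h3 : x.num ∣ p := by
    have : x.num ∣ p * x.denom := ⟨q, by rw [← hnd]⟩
    exact hcop'.dvd_of_dvd_mul_right this
  have h4 : p ∣ x.num := by
    have : p ∣ x.num * q := ⟨x.denom, by rw [hnd]⟩
    exact hcop.dvd_of_dvd_mul_right this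
  refine ⟨?_, ?_⟩
  · by_cases hp : p = 0
    · have : x.num = 0 := by
        rw [hp] at h4
        exact zero_dvd_iff.mp h4
      rw [this, hp]
    · have hn : x.num ≠ 0 := fun h => hp (zero_dvd_iff.mp (h ▸ h3))
      exact le_antisymm (natDegree_le_of_dvd h3 hp) (natDegree_le_of_dvd h4 hn)
  · exact le_antisymm (natDegree_le_of_dvd h1 hq) (natDegree_le_of_dvd h2 hd0)

theorem ratDeg_div_of_isCoprime {p q : K[X]} (hq : q ≠ 0) (hcop : IsCoprime p q) :
    ratDeg (algebraMap K[X] (RatFunc K) p / algebraMap K[X] (RatFunc K) q) =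
      max p.natDegree q.natDegree := by
  obtain ⟨h1, h2⟩ := natDegree_num_denom_of_isCoprime hq hcop
  rw [ratDeg, h1, h2]

/-- Homogeneous substitution: `∑ i ≤ n, pᵢ Aⁱ Bⁿ⁻ⁱ`. -/
noncomputable def homSubst (n : ℕ) (P A B : K[X]) : K[X] :=
  ∑ i ∈ Finset.range (n + 1), C (P.coeff i) * A ^ i * B ^ (n - i)

theorem algebraMap_homSubst {n : ℕ} {P : K[X]} (hP : P.natDegree ≤ n) (A : K[X]) {B : K[X]}
    (hB : B ≠ 0) :
    algebraMap K[X] (RatFunc K) (homSubst n P A B) =
      aeval (algebraMap K[X] (RatFunc K) A / algebraMap K[X] (RatFunc K) B) P *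
        (algebraMap K[X] (RatFunc K) B) ^ n := by
  have hB' : algebraMap K[X] (RatFunc K) B ≠ 0 := RatFunc.algebraMap_ne_zero hB
  rw [aeval_eq_sum_range' (Nat.lt_succ_of_le hP), homSubst, map_sum, Finset.sum_mul]
  refine Finset.sum_congr rfl fun i hi => ?_
  have hi' : i ≤ n := Nat.lt_succ_iff.mp (Finset.mem_range.mp hi)
  rw [map_mul, map_mul, map_pow, map_pow, Algebra.smul_def, div_pow]
  have e : (algebraMap K[X] (RatFunc K) B) ^ n =
      (algebraMap K[X] (RatFunc K) B) ^ i * (algebraMap K[X] (RatFunc K) B) ^ (n - i) := by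
    rw [← pow_add, Nat.add_sub_cancel' hi']
  rw [e]
  have hBi : (algebraMap K[X] (RatFunc K) B) ^ i ≠ 0 := pow_ne_zero _ hB'
  have hc : algebraMap K[X] (RatFunc K) (C (P.coeff i)) = algebraMap K (RatFunc K) (P.coeff i) := by
    rw [← Polynomial.algebraMap_eq, ← IsScalarTower.algebraMap_apply]
  rw [hc]
  field_simp

theorem homSubst_bezout {n : ℕ} {P Q : K[X]} (hP : P.natDegree ≤ n) (hQ : Q.natDegree ≤ n)
    (hcop : IsCoprime P Q) (A : K[X]) {B : K[X]} (hB : B ≠ 0) :
    ∃ (m : ℕ) (U V : K[X]), U * homSubst n P A B + V * homSubst n Q A B = B ^ (n + m) := by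
  obtain ⟨u, v, huv⟩ := hcop
  set m := max u.natDegree v.natDegree with hm
  refine ⟨m, homSubst m u A B, homSubst m v A B, ?_⟩
  apply RatFunc.algebraMap_injective K
  have hB' : algebraMap K[X] (RatFunc K) B ≠ 0 := RatFunc.algebraMap_ne_zero hB
  rw [map_add, map_mul, map_mul, map_pow,
    algebraMap_homSubst (le_max_left _ _) A hB, algebraMap_homSubst (le_max_right _ _) A hB,
    algebraMap_homSubst hP A hB, algebraMap_homSubst hQ A hB]
  have key := congrArg (aeval (algebraMap K[X] (RatFunc K) A / algebraMap K[X] (RatFunc K) B)) huv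
  rw [map_add, map_mul, map_mul, map_one] at key
  rw [pow_add]
  linear_combination
    (algebraMap K[X] (RatFunc K) B) ^ n * (algebraMap K[X] (RatFunc K) B) ^ m * key

theorem dvd_homSubst_sub (n : ℕ) (P A B : K[X]) :
    B ∣ homSubst n P A B - C (P.coeff n) * A ^ n := by
  have e : homSubst n P A B - C (P.coeff n) * A ^ n =
      ∑ i ∈ Finset.range n, C (P.coeff i) * A ^ i * B ^ (n - i) := by
    unfold homSubst
    rw [Finset.sum_range_succ, Nat.sub_self, pow_zero, mul_one]
    ring
  rw [e]
  refine Finset.dvd_sum fun i hi => ?_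
  have hi' : i < n := Finset.mem_range.mp hi
  obtain ⟨k, hk⟩ : ∃ k, n - i = k + 1 := ⟨n - i - 1, by omega⟩
  rw [hk, pow_succ]
  exact Dvd.dvd.mul_left (dvd_mul_left B (B ^ k)) _

theorem isCoprime_homSubst {n : ℕ} {P Q : K[X]} (hP : P.natDegree ≤ n) (hQ : Q.natDegree ≤ n)
    (hn : P.coeff n ≠ 0 ∨ Q.coeff n ≠ 0)
    (hcop : IsCoprime P Q) {A B : K[X]} (hAB : IsCoprime A B) (hB : B ≠ 0) :
    IsCoprime (homSubst n P A B) (homSubst n Q A B) := by
  obtain ⟨m, U, V, hUV⟩ := homSubst_bezout hP hQ hcop A hB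
  -- the top coefficients
  have key : ∀ D : K[X], Prime D → D ∣ homSubst n P A B → D ∣ homSubst n Q A B → False := by
    intro D hD h1 h2
    have hDB : D ∣ B := by
      have : D ∣ B ^ (n + m) := by
        rw [← hUV]
        exact dvd_add (Dvd.dvd.mul_left h1 U) (Dvd.dvd.mul_left h2 V)
      exact hD.dvd_of_dvd_pow this
    have hDA : ¬ D ∣ A := by
      intro hDA
      exact hD.not_isUnit (hAB.isUnit_of_dvd' hDA hDB)
    have hcoeff : ∀ R : K[X], D ∣ homSubst n R A B → R.coeff n = 0 := by
      intro R hR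
      have h3 : D ∣ C (R.coeff n) * A ^ n := by
        have := dvd_sub hR (hDB.trans (dvd_homSubst_sub n R A B))
        rwa [sub_sub_cancel] at this
      rcases hD.dvd_or_dvd h3 with h4 | h4
      · by_contra hne
        exact hD.not_isUnit (isUnit_of_dvd_unit h4 (isUnit_C.mpr (IsUnit.mk0 _ hne)))
      · exact absurd (hD.dvd_of_dvd_pow h4) hDA
    rcases hn with h | h
    · exact h (hcoeff P h1)
    · exact h (hcoeff Q h2)
  refine isCoprime_of_prime_dvd ?_ (fun D hD h1 h2 => key D hD h1 h2)
  rintro ⟨h1, h2⟩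
  -- both zero: then B ^ (n+m) = 0
  rw [h1, h2, mul_zero, mul_zero, add_zero] at hUV
  exact hB (pow_eq_zero_iff (n := n + m) (by
    intro h0
    have : n = 0 := by omega
    subst this
    -- n = 0: homSubst 0 P A B = C (P.coeff 0)
    rcases hn with h | h
    · apply h
      have := h1
      simp [homSubst] at this
      exact this
    · apply h
      have := h2
      simp [homSubst] at this
      exact this) |>.mp hUV.symm)

theorem natDegree_homSubst_le (n : ℕ) (P : K[X]) {A B : K[X]} {d : ℕ}
    (hA : A.natDegree ≤ d) (hB : B.natDegree ≤ d) :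
    (homSubst n P A B).natDegree ≤ n * d := by
  unfold homSubst
  refine natDegree_sum_le_of_forall_le _ _ fun i hi => ?_
  have hi' : i ≤ n := Nat.lt_succ_iff.mp (Finset.mem_range.mp hi)
  have h1 : (C (P.coeff i) * A ^ i).natDegree ≤ i * d :=
    (natDegree_C_mul_le _ _).trans (natDegree_pow_le_of_le i hA)
  have h2 : (B ^ (n - i)).natDegree ≤ (n - i) * d := natDegree_pow_le_of_le _ hB
  have h3 := natDegree_mul_le_of_le h1 h2
  have e : i * d + (n - i) * d = n * d := by
    rw [← Nat.add_mul, Nat.add_sub_cancel' hi']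
  rwa [e] at h3

theorem coeff_homSubst (n : ℕ) (P : K[X]) {A B : K[X]} {d : ℕ}
    (hA : A.natDegree ≤ d) (hB : B.natDegree ≤ d) :
    (homSubst n P A B).coeff (n * d) =
      ∑ i ∈ Finset.range (n + 1), P.coeff i * A.coeff d ^ i * B.coeff d ^ (n - i) := by
  unfold homSubst
  rw [finsetSum_coeff]
  refine Finset.sum_congr rfl fun i hi => ?_
  have hi' : i ≤ n := Nat.lt_succ_iff.mp (Finset.mem_range.mp hi)
  have e : n * d = i * d + (n - i) * d := by
    rw [← Nat.add_mul, Nat.add_sub_cancel' hi']
  have h1 : (C (P.coeff i) * A ^ i).natDegree ≤ i * d :=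
    (natDegree_C_mul_le _ _).trans (natDegree_pow_le_of_le i hA)
  have h2 : (B ^ (n - i)).natDegree ≤ (n - i) * d := natDegree_pow_le_of_le _ hB
  rw [e, coeff_mul_add_eq_of_natDegree_le h1 h2, coeff_C_mul, coeff_pow_of_natDegree_le hA,
    coeff_pow_of_natDegree_le hB]

/-- The constant-level version of `homSubst`. -/
theorem homSubst_C (n : ℕ) (P : K[X]) (a b : K) :
    homSubst n P (C a) (C b) =
      C (∑ i ∈ Finset.range (n + 1), P.coeff i * a ^ i * b ^ (n - i)) := by
  unfold homSubst
  rw [map_sum]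
  refine Finset.sum_congr rfl fun i _ => ?_
  rw [map_mul, map_mul, map_pow, map_pow]

theorem homSubst_top_ne_zero {n : ℕ} {P Q : K[X]} (hP : P.natDegree ≤ n) (hQ : Q.natDegree ≤ n)
    (hn : P.coeff n ≠ 0 ∨ Q.coeff n ≠ 0) (hcop : IsCoprime P Q) {a b : K}
    (hab : a ≠ 0 ∨ b ≠ 0) :
    (∑ i ∈ Finset.range (n + 1), P.coeff i * a ^ i * b ^ (n - i)) ≠ 0 ∨
      (∑ i ∈ Finset.range (n + 1), Q.coeff i * a ^ i * b ^ (n - i)) ≠ 0 := by
  by_cases hb : b = 0
  · have ha : a ≠ 0 := hab.resolve_right (fun h => h hb)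
    have key : ∀ R : K[X], (∑ i ∈ Finset.range (n + 1), R.coeff i * a ^ i * b ^ (n - i)) =
        R.coeff n * a ^ n := by
      intro R
      rw [Finset.sum_range_succ, Nat.sub_self, pow_zero, mul_one]
      have : ∑ i ∈ Finset.range n, R.coeff i * a ^ i * b ^ (n - i) = 0 := by
        refine Finset.sum_eq_zero fun i hi => ?_
        have hi' : i < n := Finset.mem_range.mp hi
        have : n - i ≠ 0 := by omega
        rw [hb, zero_pow this, mul_zero]
      rw [this, zero_add]
    rw [key P, key Q]
    rcases hn with h | h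
    · exact Or.inl (mul_ne_zero h (pow_ne_zero _ ha))
    · exact Or.inr (mul_ne_zero h (pow_ne_zero _ ha))
  · have hcb : (C b : K[X]) ≠ 0 := C_ne_zero.mpr hb
    have hAB : IsCoprime (C a : K[X]) (C b) :=
      ⟨0, C b⁻¹, by rw [zero_mul, zero_add, ← C_mul, inv_mul_cancel₀ hb, C_1]⟩
    have h := isCoprime_homSubst hP hQ hn hcop hAB hcb
    rw [homSubst_C, homSubst_C] at h
    by_contra hcon
    push Not at hcon
    rw [hcon.1, hcon.2, map_zero] at h
    exact not_isCoprime_zero_zero h

theorem max_natDegree_homSubst {n : ℕ} {P Q : K[X]} (hP : P.natDegree ≤ n)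
    (hQ : Q.natDegree ≤ n) (hn : P.coeff n ≠ 0 ∨ Q.coeff n ≠ 0) (hcop : IsCoprime P Q)
    {A B : K[X]} (hB : B ≠ 0) :
    max (homSubst n P A B).natDegree (homSubst n Q A B).natDegree =
      n * max A.natDegree B.natDegree := by
  set d := max A.natDegree B.natDegree with hd
  have hA' : A.natDegree ≤ d := le_max_left _ _
  have hB' : B.natDegree ≤ d := le_max_right _ _
  refine le_antisymm (max_le (natDegree_homSubst_le n P hA' hB')
    (natDegree_homSubst_le n Q hA' hB')) ?_
  have hab : A.coeff d ≠ 0 ∨ B.coeff d ≠ 0 := by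
    rcases max_cases A.natDegree B.natDegree with ⟨h1, h2⟩ | ⟨h1, h2⟩
    · by_cases hA0 : A = 0
      · right
        have : d = B.natDegree := by
          rw [hd, hA0, natDegree_zero, Nat.zero_max]
        rw [this]
        exact leadingCoeff_ne_zero.mpr hB
      · left
        rw [hd, h1]
        exact leadingCoeff_ne_zero.mpr hA0
    · right
      rw [hd, h1]
      exact leadingCoeff_ne_zero.mpr hB
  rcases homSubst_top_ne_zero hP hQ hn hcop hab with h | h
  · rw [← coeff_homSubst n P hA' hB'] at h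
    exact le_max_of_le_left (le_natDegree_of_ne_zero h)
  · rw [← coeff_homSubst n Q hA' hB'] at h
    exact le_max_of_le_right (le_natDegree_of_ne_zero h)

/-- **Multiplicativity of the degree under substitution.** For every `K`-algebra endomorphism
`φ` of `K(X)` (i.e. substitution `X ↦ φ X`) the degree of `φ g` is the product of the degrees
of `g` and of `φ X`. -/
theorem ratDeg_algHom (φ : RatFunc K →ₐ[K] RatFunc K) (g : RatFunc K) :
    ratDeg (φ g) = ratDeg g * ratDeg (φ RatFunc.X) := by
  set r := φ RatFunc.X with hr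
  set P := g.num with hP
  set Q := g.denom with hQ
  set A := r.num with hA
  set B := r.denom with hB
  set n := max P.natDegree Q.natDegree with hn
  have hB0 : B ≠ 0 := RatFunc.denom_ne_zero r
  have hQ0 : Q ≠ 0 := RatFunc.denom_ne_zero g
  have hQm : Q.Monic := RatFunc.monic_denom g
  have hPn : P.natDegree ≤ n := le_max_left _ _
  have hQn : Q.natDegree ≤ n := le_max_right _ _
  have hcopPQ : IsCoprime P Q := RatFunc.isCoprime_num_denom g
  have hcopAB : IsCoprime A B := RatFunc.isCoprime_num_denom r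
  have hφ : ∀ p : K[X], φ (algebraMap K[X] (RatFunc K) p) = aeval r p := by
    intro p
    rw [← RatFunc.aeval_X_left_eq_algebraMap, ← aeval_algHom_apply]
  have hrAB : algebraMap K[X] (RatFunc K) A / algebraMap K[X] (RatFunc K) B = r :=
    RatFunc.num_div_denom r
  have hB' : algebraMap K[X] (RatFunc K) B ≠ 0 := RatFunc.algebraMap_ne_zero hB0
  have hQr : aeval r Q ≠ 0 := by
    rw [← hφ]
    intro h
    have := (map_eq_zero φ).mp h
    exact hQ0 ((map_eq_zero_iff _ (RatFunc.algebraMap_injective K)).mp this)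
  have e1 : algebraMap K[X] (RatFunc K) (homSubst n P A B) =
      aeval r P * (algebraMap K[X] (RatFunc K) B) ^ n := by
    rw [algebraMap_homSubst hPn A hB0, hrAB]
  have e2 : algebraMap K[X] (RatFunc K) (homSubst n Q A B) =
      aeval r Q * (algebraMap K[X] (RatFunc K) B) ^ n := by
    rw [algebraMap_homSubst hQn A hB0, hrAB]
  have hhQ0 : homSubst n Q A B ≠ 0 := by
    intro h
    rw [h, map_zero] at e2
    exact mul_ne_zero hQr (pow_ne_zero _ hB') e2.symm
  have hφg : φ g = algebraMap K[X] (RatFunc K) (homSubst n P A B) /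
      algebraMap K[X] (RatFunc K) (homSubst n Q A B) := by
    rw [e1, e2, mul_div_mul_right _ _ (pow_ne_zero _ hB'), ← hφ, ← hφ, ← map_div₀,
      RatFunc.num_div_denom]
  have hcoeff : P.coeff n ≠ 0 ∨ Q.coeff n ≠ 0 := by
    rcases max_cases P.natDegree Q.natDegree with ⟨h1, h2⟩ | ⟨h1, h2⟩
    · by_cases hP0 : P = 0
      · right
        have : n = Q.natDegree := by rw [hn, hP0, natDegree_zero, Nat.zero_max]
        rw [this]
        exact leadingCoeff_ne_zero.mpr hQ0
      · left
        rw [hn, h1]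
        exact leadingCoeff_ne_zero.mpr hP0
    · right
      rw [hn, h1]
      exact leadingCoeff_ne_zero.mpr hQ0
  rw [hφg, ratDeg_div_of_isCoprime hhQ0
    (isCoprime_homSubst hPn hQn hcoeff hcopPQ hcopAB hB0),
    max_natDegree_homSubst hPn hQn hcoeff hcopPQ hB0]
  rfl

theorem ratDeg_algebraMap_C (c : K) : ratDeg (algebraMap K (RatFunc K) c) = 0 := by
  have : algebraMap K (RatFunc K) c = algebraMap K[X] (RatFunc K) (C c) / algebraMap K[X] (RatFunc K) 1 := by
    rw [map_one, div_one, ← Polynomial.algebraMap_eq, ← IsScalarTower.algebraMap_apply]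
  rw [this, ratDeg_div_of_isCoprime one_ne_zero isCoprime_one_right]
  simp

theorem ratDeg_X : ratDeg (RatFunc.X : RatFunc K) = 1 := by
  have : (RatFunc.X : RatFunc K) =
      algebraMap K[X] (RatFunc K) X / algebraMap K[X] (RatFunc K) 1 := by
    rw [map_one, div_one, RatFunc.algebraMap_X]
  rw [this, ratDeg_div_of_isCoprime one_ne_zero isCoprime_one_right]
  simp

/-- A rational function has degree zero iff it is constant. -/
theorem ratDeg_eq_zero_iff (f : RatFunc K) :
    ratDeg f = 0 ↔ ∃ c : K, f = algebraMap K (RatFunc K) c := by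
  constructor
  · intro h
    have h1 : f.num.natDegree = 0 := Nat.eq_zero_of_le_zero ((le_max_left _ _).trans h.le)
    have h2 : f.denom.natDegree = 0 := Nat.eq_zero_of_le_zero ((le_max_right _ _).trans h.le)
    obtain ⟨a, ha⟩ := natDegree_eq_zero.mp h1
    obtain ⟨b, hb⟩ := natDegree_eq_zero.mp h2
    have hb0 : b ≠ 0 := by
      rintro rfl
      rw [map_zero] at hb
      exact RatFunc.denom_ne_zero f hb.symm
    refine ⟨a / b, ?_⟩
    rw [← RatFunc.num_div_denom f, ← ha, ← hb, map_div₀]
    congr 1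
  · rintro ⟨c, rfl⟩
    exact ratDeg_algebraMap_C c

/-- A non-constant rational function is transcendental over the constants: evaluation of
polynomials at it is injective. -/
theorem aeval_injective_of_ratDeg_pos {r : RatFunc K} (hr : 0 < ratDeg r) :
    Function.Injective (aeval r : K[X] →ₐ[K] RatFunc K) := by
  rw [injective_iff_map_eq_zero]
  intro P hP
  by_contra hP0
  set A := r.num with hA
  set B := r.denom with hB
  have hB0 : B ≠ 0 := RatFunc.denom_ne_zero r
  have hB' : algebraMap K[X] (RatFunc K) B ≠ 0 := RatFunc.algebraMap_ne_zero hB0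
  have hcopAB : IsCoprime A B := RatFunc.isCoprime_num_denom r
  have hrAB : algebraMap K[X] (RatFunc K) A / algebraMap K[X] (RatFunc K) B = r :=
    RatFunc.num_div_denom r
  set n := P.natDegree with hn
  have hcoeff : P.coeff n ≠ 0 ∨ (1 : K[X]).coeff n ≠ 0 := Or.inl (leadingCoeff_ne_zero.mpr hP0)
  have h1n : (1 : K[X]).natDegree ≤ n := by simp
  have e1 : homSubst n P A B = 0 := by
    apply RatFunc.algebraMap_injective K
    rw [algebraMap_homSubst le_rfl A hB0, hrAB, hP, zero_mul, map_zero]
  have e2 : algebraMap K[X] (RatFunc K) (homSubst n 1 A B) =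
      algebraMap K[X] (RatFunc K) (B ^ n) := by
    rw [algebraMap_homSubst h1n A hB0, map_one, one_mul, map_pow]
  have e2' : homSubst n 1 A B = B ^ n := RatFunc.algebraMap_injective K e2
  have hcop := isCoprime_homSubst le_rfl h1n hcoeff isCoprime_one_right hcopAB hB0
  have hmax := max_natDegree_homSubst le_rfl h1n hcoeff isCoprime_one_right (A := A) hB0
  rw [e1, e2'] at hcop hmax
  have hunit : IsUnit (B ^ n) := isCoprime_zero_left.mp hcop
  have hdeg : (B ^ n).natDegree = 0 := natDegree_eq_zero_of_isUnit hunit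
  rw [natDegree_zero, hdeg, max_self] at hmax
  have hd : 0 < max A.natDegree B.natDegree := hr
  have hn0 : n = 0 := by
    rcases Nat.eq_zero_or_pos n with h | h
    · exact h
    · exact absurd hmax.symm (Nat.mul_ne_zero h.ne' hd.ne')
  -- `P` is a nonzero constant
  obtain ⟨c, hc⟩ := natDegree_eq_zero.mp hn0
  rw [← hc, aeval_C] at hP
  have : c = 0 := (map_eq_zero_iff _ (algebraMap K (RatFunc K)).injective).mp hP
  exact hP0 (by rw [← hc, this, map_zero])

/-- Substitution `X ↦ r` for a non-constant rational function `r`, as an algebra endomorphism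
of `K(X)`. -/
noncomputable def substAlgHom (r : RatFunc K) (hr : 0 < ratDeg r) : RatFunc K →ₐ[K] RatFunc K :=
  RatFunc.liftAlgHom (aeval r)
    (nonZeroDivisors_le_comap_nonZeroDivisors_of_injective _ (aeval_injective_of_ratDeg_pos hr))

theorem substAlgHom_algebraMap (r : RatFunc K) (hr : 0 < ratDeg r) (p : K[X]) :
    substAlgHom r hr (algebraMap K[X] (RatFunc K) p) = aeval r p := by
  have := RatFunc.liftAlgHom_apply_div (aeval r)
    (nonZeroDivisors_le_comap_nonZeroDivisors_of_injective _ (aeval_injective_of_ratDeg_pos hr))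
    p 1
  rw [map_one, div_one, map_one, div_one] at this
  exact this

@[simp]
theorem substAlgHom_X (r : RatFunc K) (hr : 0 < ratDeg r) :
    substAlgHom r hr RatFunc.X = r := by
  rw [← RatFunc.algebraMap_X, substAlgHom_algebraMap, aeval_X]

theorem substAlgHom_apply (r : RatFunc K) (hr : 0 < ratDeg r) (f : RatFunc K) :
    substAlgHom r hr f = aeval r f.num / aeval r f.denom :=
  RatFunc.liftAlgHom_apply _ _ f

/-- Degree of a substitution. -/
theorem ratDeg_substAlgHom (r : RatFunc K) (hr : 0 < ratDeg r) (g : RatFunc K) :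
    ratDeg (substAlgHom r hr g) = ratDeg g * ratDeg r := by
  rw [ratDeg_algHom, substAlgHom_X]

/-- Every algebra endomorphism of `K(X)` is a substitution by a non-constant function. -/
theorem ratDeg_algHom_X_pos (φ : RatFunc K →ₐ[K] RatFunc K) : 0 < ratDeg (φ RatFunc.X) := by
  rw [Nat.pos_iff_ne_zero]
  intro h
  obtain ⟨c, hc⟩ := (ratDeg_eq_zero_iff _).mp h
  have h1 : φ (RatFunc.X - algebraMap K (RatFunc K) c) = 0 := by
    rw [map_sub, hc, AlgHom.commutes, sub_self]
  have h2 := (map_eq_zero φ).mp h1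
  have h3 : ratDeg (RatFunc.X : RatFunc K) = 0 := by
    rw [sub_eq_zero.mp h2]
    exact ratDeg_algebraMap_C c
  rw [ratDeg_X] at h3
  exact one_ne_zero h3

end Fermat.Agent.H77
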